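/-
GATE-E / RISK-4 PNEW-STAGE, leaf R4-G (g1), file 5 (helper15): **the FIXED bases and the FIXED base
maps of the `p`-new levels.**

`P2/Main.exists_levelHom_primeData` / `P2/MainPlug.exists_kerData` give the two morphisms of levels
`φα φβ : LevelHom F G _` over the base maps `f0αE`, `f0βE` between the primary parts at the BIG level
`Nl p` resp. `Nl` (`Nl = M ∏_{s ∈ Q} pr s`, Taylor–Wiles symbols included).  `BaseB.NewSide` wants
them over base modules and base maps which do NOT depend on the Taylor–Wiles set: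

  `baseF = Hom(Γ₀(M p), O)_{ker lam'}`, `baseG = Hom(Γ₀(M), O)_{ker lam'}`,
  `f1 = cores_p`, `f2 = cores_{p,δ}`   (restricted to the primary parts).

* `coresq_resH`, `coresDq_resH`, `coresq_cast_resH`, `coresDq_cast_resH` : for a character with trivial
  target the transfers of `Γ_H` are the transfers of `Γ₀`;
* `baseF`, `baseG`, `f1`, `f2`, `coe_f1`, `coe_f2`, `f1_act`, `f2_act` : the fixed objects;
* `exists_pairEquiv` : `PairIter.exists_stage_pair` + `PairExtract` at the symbols `Sy`;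
* **`exists_baseEquiv_pair`** : the pair twin of `FreeLevelInst.exists_baseEquiv_M0` — equivalences
  `eF : M0 Sy 𝔪 Δs ψ ≃ baseF`, `eG : Hom(Γ_H(θ'₀), O)_𝔪 ≃ baseG`, equivariant up to ONE substitution
  `rename f ∘ ρ`, with the squares `eG ∘ f0αE = f1 ∘ eF`, `eG ∘ f0βE = f2 ∘ eF`;
* `mapBaseHom`, `castNHom` : transport of a morphism of levels along `MapBase.mapBase` /
  `FreeLevelInst.castN` (SAME `.f`, by `rfl`), so that the kernel of the pair does not move.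
-/
import Mathlib
import Fermat.Agent.GB.B7.UqCoresH
import Fermat.Agent.GE8.P3B.GE6.Inst.FreeLevelInst
import Fermat.Agent.GE8.P3B.GE8.RaiseP.P2.Main
import Fermat.Agent.GE8.RaiseP.G1.PairIter
import Fermat.Agent.GE8.RaiseP.G1.PairExtract
import Fermat.Agent.GE8.P3B.StepGen
import Fermat.Agent.GE8.P3B.Ok3W

/- TWIN (helper6 B4 generator; conventions of helper24 / helper86) of `Fermat.Agent.GE8.RaiseP.G1.PairBase` with `p ≠ 3` relaxed to `Ok3A Sy 𝔪 p` / `Ok3W p W` (RISK-5 fix (B), step B4); everything below lives in the wrapper namespace `Fermat.Agent.GE8.P3B`. -/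
set_option linter.dupNamespace false
open Fermat Fermat.Agent Fermat.Agent.GB Fermat.Agent.GB.B3 Fermat.Agent.GB.B3.EisGamma0 Fermat.Agent.GB.B3.GamH Fermat.Agent.GB.B3.HeckeActH Fermat.Agent.GB.B3.RealLevel Fermat.Agent.GB.B3.TWLevel Fermat.Agent.GB.B7 Fermat.Agent.GB.B7.UqEquiv Fermat.Agent.GB.B7.UqSq Fermat.Agent.GB.B8 Fermat.Agent.GB.B8.LevelGamma0 Fermat.Agent.GB.B8.LevelGen Fermat.Agent.GB.B8.LevelIter Fermat.Agent.GE6 Fermat.Agent.GE6.Inst Fermat.Agent.GE6.Inst.BaseIndep Fermat.Agent.GE6.Inst.MapBase Fermat.Agent.GE8 Fermat.Agent.GE8.Deside Fermat.Agent.GE8.Deside.ResNew Fermat.Agent.GE8.RaiseP Fermat.Agent.GE8.RaiseP.G1 Fermat.Agent.GE8.RaiseP.G1.PairAbs Fermat.Agent.GE8.RaiseP.G1.PairComm Fermat.Agent.GE8.RaiseP.G1.PairExtract Fermat.Agent.GE8.RaiseP.G1.PairIter Fermat.Agent.GE8.RaiseP.NewLevel Fermat.Agent.GE8.RaiseP.P2 Fermat.Agent.GM Fermat.Agent.GM.B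

namespace Fermat.Agent.GE8.P3B

set_option autoImplicit false
set_option linter.unusedSectionVars false
set_option linter.unusedVariables false
set_option linter.style.haveILetI false

open scoped MatrixGroups
open CongruenceSubgroup

namespace GE8.RaiseP.G1.PairBase

open MvPolynomial
open GM.B
open GB.B3 GB.B3.EisGamma0 GB.B3.GamH
  GB.B3.TWLevel GB.B3.RealLevel
  GB.B3.HeckeActH GB.B3.Final GB.B3.Tower
  GB.B3.LocTransport
open GB.B7.UqSq GB.B7.UqEquiv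
open GB.B8.LevelIter GB.B8.LevelGen GB.B8.LevelGamma0
open GE6.Inst.BaseIndep GE6.Inst.MapBase
  GE6.Inst.FreeLevelInst
open GE8.Deside.ResNew
open GE8.RaiseP.NewLevel GE8.RaiseP.P2.Main
open GE8.RaiseP.G1.PairAbs GE8.RaiseP.G1.PairComm
  GE8.RaiseP.G1.PairIter GE8.RaiseP.G1.PairExtract

/-! ### trivial target: the transfers of `Γ_H` are the transfers of `Γ₀` -/

section Trivial

variable {N q : ℕ} [Fact q.Prime] {Δ : Type} [CommGroup Δ] [Fintype Δ] [Subsingleton Δ]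
  (θ' : (ZMod N)ˣ →* Δ) (hqN : ¬ q ∣ N) {A : Type*} [AddCommGroup A]

theorem card_eq_one_of_subsingleton : Fintype.card Δ = 1 :=
  Fintype.card_eq_one_iff.2 ⟨1, fun _ => Subsingleton.elim _ _⟩

/-- for a trivial target the transfer `Hom(Γ_H, A) → Hom(Γ₀(N), A)` is injective -/
theorem coresH_injective {N : ℕ} (θ : (ZMod N)ˣ →* Δ) (rep : Δ → Gamma0 N)
    (hrep : ∀ δ, chi θ (rep δ) = δ) : Function.Injective (coresH θ rep hrep A) := by
  intro ψ₁ ψ₂ h
  have key : ∀ ψ : Additive (GammaH θ) →+ A, resH θ A (coresH θ rep hrep A ψ) = ψ := by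
    intro ψ
    rw [resH_coresH]
    have huniv : (Finset.univ : Finset Δ) = {1} :=
      Finset.eq_singleton_iff_unique_mem.2 ⟨Finset.mem_univ _, fun _ _ => Subsingleton.elim _ _⟩
    rw [huniv, Finset.sum_singleton]
    exact diaH_of_ker θ (rep 1) (Subsingleton.elim _ _) ψ
  rw [← key ψ₁, ← key ψ₂, h]

/-- **`cores_q^{Γ_H} ∘ res = res ∘ cores_q^{Γ₀}`** for a character with trivial target -/
theorem coresq_resH (x : Additive (Gamma0 (N * q)) →+ A) :
    coresq θ' hqN A (resH (thQ θ' q) A x) = resH θ' A (cores A hqN x) := by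
  have hrep₁ : ∀ δ : Δ, chi (thQ θ' q) ((fun _ => 1 : Δ → Gamma0 (N * q)) δ) = δ :=
    fun δ => Subsingleton.elim _ _
  have hrep₂ : ∀ δ : Δ, chi θ' ((fun _ => 1 : Δ → Gamma0 N) δ) = δ :=
    fun δ => Subsingleton.elim _ _
  apply coresH_injective θ' (fun _ => 1) hrep₂
  rw [coresH_coresq θ' (fun _ => 1) hrep₁ (fun _ => 1) hrep₂ hqN, coresH_resH, coresH_resH,
    card_eq_one_of_subsingleton, one_smul, one_smul]
  rfl

/-- **`cores_{q,δ}^{Γ_H} ∘ res = res ∘ cores_{q,δ}^{Γ₀}`** for a character with trivial target -/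
theorem coresDq_resH (x : Additive (Gamma0 (N * q)) →+ A) :
    coresDq θ' hqN A (resH (thQ θ' q) A x) = resH θ' A (coresD A hqN x) := by
  have hrep₁ : ∀ δ : Δ, chi (thQ θ' q) ((fun _ => 1 : Δ → Gamma0 (N * q)) δ) = δ :=
    fun δ => Subsingleton.elim _ _
  have hrep₂ : ∀ δ : Δ, chi θ' ((fun _ => 1 : Δ → Gamma0 N) δ) = δ :=
    fun δ => Subsingleton.elim _ _
  apply coresH_injective θ' (fun _ => 1) hrep₂
  rw [coresH_coresDq θ' (fun _ => 1) hrep₁ (fun _ => 1) hrep₂ hqN, coresH_resH, coresH_resH,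
    card_eq_one_of_subsingleton, one_smul, one_smul]
  rfl

/-- the same with the character at level `N q` given up to equality -/
theorem coresq_cast_resH (θ : (ZMod (N * q))ˣ →* Δ) (hθ : θ = thQ θ' q)
    (x : Additive (Gamma0 (N * q)) →+ A) :
    coresq θ' hqN A (castΘ hθ A (resH θ A x)) = resH θ' A (cores A hqN x) := by
  subst hθ
  rw [castΘ_rfl]
  exact coresq_resH θ' hqN x

theorem coresDq_cast_resH (θ : (ZMod (N * q))ˣ →* Δ) (hθ : θ = thQ θ' q)
    (x : Additive (Gamma0 (N * q)) →+ A) :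
    coresDq θ' hqN A (castΘ hθ A (resH θ A x)) = resH θ' A (coresD A hqN x) := by
  subst hθ
  rw [castΘ_rfl]
  exact coresDq_resH θ' hqN x

end Trivial

/-! ### the fixed base modules and base maps -/

section Fixed

variable (O : Type) [CommRing O] {σ' : Type} (pr' : σ' → ℕ) (hpr' : ∀ s, (pr' s).Prime)
  (p : ℕ) [Fact p.Prime] (hp' : ∀ s, pr' s ≠ p) (M : ℕ) (hpM : ¬ p ∣ M)
  {κ : Type} [Field κ] [Algebra O κ] (lam' : MvPolynomial σ' O →ₐ[O] κ)

/-- **the fixed base module at level `M p`**: `Hom(Γ₀(M p), O)_{ker lam'}` -/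
abbrev baseF : Type :=
  GB.B8.LevelStage.locSub (actN O pr' hpr' (M * p))
    (RingHom.ker (lam' : MvPolynomial σ' O →+* κ))

/-- **the fixed base module at level `M`**: `Hom(Γ₀(M), O)_{ker lam'}` -/
abbrev baseG : Type :=
  GB.B8.LevelStage.locSub (actN O pr' hpr' M)
    (RingHom.ker (lam' : MvPolynomial σ' O →+* κ))

/-- the Hecke action on `baseF` -/
noncomputable abbrev actBF : MvPolynomial σ' O →ₐ[O] Module.End O (baseF O pr' hpr' p M lam') :=
  GB.B8.LevelStage.locAct (actN O pr' hpr' (M * p))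
    (RingHom.ker (lam' : MvPolynomial σ' O →+* κ))

/-- the Hecke action on `baseG` -/
noncomputable abbrev actBG : MvPolynomial σ' O →ₐ[O] Module.End O (baseG O pr' hpr' M lam') :=
  GB.B8.LevelStage.locAct (actN O pr' hpr' M)
    (RingHom.ker (lam' : MvPolynomial σ' O →+* κ))

include hp' in
/-- **the fixed base map `cores_p`** on the primary parts -/
noncomputable def f1 : baseF O pr' hpr' p M lam' →ₗ[O] baseG O pr' hpr' M lam' :=
  locMapOf (opLin O (coresSys' hpM)) (fun t x => cores_actN O pr' hpr' hp' hpM t x) _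

include hp' in
/-- **the fixed base map `cores_{p,δ}`** on the primary parts -/
noncomputable def f2 : baseF O pr' hpr' p M lam' →ₗ[O] baseG O pr' hpr' M lam' :=
  locMapOf (opLin O (coresDSys' hpM)) (fun t x => coresD_actN O pr' hpr' hp' hpM t x) _

theorem coe_f1 (x : baseF O pr' hpr' p M lam') :
    ((f1 O pr' hpr' p hp' M hpM lam' x : baseG O pr' hpr' M lam') : Additive (Gamma0 M) →+ O)
      = cores O hpM (x : Additive (Gamma0 (M * p)) →+ O) := rfl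

theorem coe_f2 (x : baseF O pr' hpr' p M lam') :
    ((f2 O pr' hpr' p hp' M hpM lam' x : baseG O pr' hpr' M lam') : Additive (Gamma0 M) →+ O)
      = coresD O hpM (x : Additive (Gamma0 (M * p)) →+ O) := rfl

theorem f1_act (t : MvPolynomial σ' O) (x : baseF O pr' hpr' p M lam') :
    f1 O pr' hpr' p hp' M hpM lam' (actBF O pr' hpr' p M lam' t x)
      = actBG O pr' hpr' M lam' t (f1 O pr' hpr' p hp' M hpM lam' x) :=
  locMapOf_act _ _ _ t x

theorem f2_act (t : MvPolynomial σ' O) (x : baseF O pr' hpr' p M lam') :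
    f2 O pr' hpr' p hp' M hpM lam' (actBF O pr' hpr' p M lam' t x)
      = actBG O pr' hpr' M lam' t (f2 O pr' hpr' p hp' M hpM lam' x) :=
  locMapOf_act _ _ _ t x

end Fixed

/-! ### the pair of base equivalences at the level of `Γ₀`, symbols of the tower -/

section PairEquiv

variable {O : Type} [CommRing O] [IsLocalRing O] [IsNoetherianRing O]
  [IsAdicComplete (IsLocalRing.maximalIdeal O) O]
variable {σ : Type} [DecidableEq σ] (pr : σ → ℕ) (hpr : ∀ s, (pr s).Prime)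
variable {κ : Type} [Field κ] [Algebra O κ]
variable (p : ℕ) [Fact p.Prime] (hp : ∀ s, pr s ≠ p)

include hp in
/-- **`PairIter.exists_stage_pair` + `PairExtract`**: the two base equivalences at the level of `Γ₀`
with ONE substitution `ρ`, and the two squares.  The actions at the top level are given up to
equality (`a = actN … (N p)`, `b = actN … N`; e.g. helper80's `act0`). -/
theorem exists_pairEquiv (hinj : Function.Injective pr)
    (hsurj : Function.Surjective (algebraMap O κ)) (M : ℕ) [NeZero M] (hpM : ¬ p ∣ M)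
    (lamBase lamTop : MvPolynomial σ O →ₐ[O] κ) (α β : σ → O) (Q : Finset σ)
    (N : ℕ) (hpN : ¬ p ∣ N) (hN : N = M * ∏ s ∈ Q, pr s) (hQM : ∀ s ∈ Q, ¬ pr s ∣ M)
    (hTW : ∀ s ∈ Q, TWCond pr lamBase lamTop α β s)
    (haway : ∀ s, s ∉ Q → lamTop (X s) = lamBase (X s))
    (a : MvPolynomial σ O →ₐ[O] Module.End O (Additive (Gamma0 (N * p)) →+ O))
    (ha : actN O pr hpr (N * p) = a)
    (b : MvPolynomial σ O →ₐ[O] Module.End O (Additive (Gamma0 N) →+ O))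
    (hb : actN O pr hpr N = b) :
    ∃ (ρ : MvPolynomial σ O →ₐ[O] MvPolynomial σ O)
      (eX : GB.B8.LevelStage.locSub (actN O pr hpr (M * p))
          (RingHom.ker (lamBase : MvPolynomial σ O →+* κ)) ≃ₗ[O]
        Base.locSub a (RingHom.ker (lamTop : MvPolynomial σ O →+* κ)))
      (eY : GB.B8.LevelStage.locSub (actN O pr hpr M)
          (RingHom.ker (lamBase : MvPolynomial σ O →+* κ)) ≃ₗ[O]
        Base.locSub b (RingHom.ker (lamTop : MvPolynomial σ O →+* κ))),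
      (∀ t x, eX (GB.B8.LevelStage.locAct (actN O pr hpr (M * p))
          (RingHom.ker (lamBase : MvPolynomial σ O →+* κ)) (ρ t) x)
        = Base.locSubAct a (RingHom.ker (lamTop : MvPolynomial σ O →+* κ)) t (eX x)) ∧
      (∀ t y, eY (GB.B8.LevelStage.locAct (actN O pr hpr M)
          (RingHom.ker (lamBase : MvPolynomial σ O →+* κ)) (ρ t) y)
        = Base.locSubAct b (RingHom.ker (lamTop : MvPolynomial σ O →+* κ)) t (eY y)) ∧
      (∀ s, s ∉ Q → ρ (X s) = X s) ∧ lamBase.comp ρ = lamTop ∧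
      (∀ x, ((eY (f1 O pr hpr p hp M hpM lamBase x) :
            Base.locSub b (RingHom.ker (lamTop : MvPolynomial σ O →+* κ))) :
            Additive (Gamma0 N) →+ O)
          = cores O hpN ((eX x : Base.locSub a (RingHom.ker (lamTop : MvPolynomial σ O →+* κ))) :
              Additive (Gamma0 (N * p)) →+ O)) ∧
      (∀ x, ((eY (f2 O pr hpr p hp M hpM lamBase x) :
            Base.locSub b (RingHom.ker (lamTop : MvPolynomial σ O →+* κ))) :
            Additive (Gamma0 N) →+ O)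
          = coresD O hpN ((eX x : Base.locSub a (RingHom.ker (lamTop : MvPolynomial σ O →+* κ))) :
              Additive (Gamma0 (N * p)) →+ O)) := by
  subst ha
  subst hb
  have key := exists_stage_pair pr hpr p hp hinj hsurj M hpM lamBase α β Q N (N * p) rfl hpN
    lamTop hN hQM hTW haway
  obtain ⟨S, ρ, hact, hρ, hlam, t1, t2, tA, tB⟩ := key
  refine ⟨ρ, eX S t1 t2, eY S t1 t2, fun t x => eX_act S ρ hact t1 t2 t x,
    fun t y => eY_act S ρ hact t1 t2 t y, hρ, hlam, fun x => ?_, fun x => ?_⟩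
  · have hsq := square S t1 t2 (coresL O (dvd_refl (M * p)) hpM)
      (fun t x => coresL_actN O pr hpr hp hpM _ t x) (coresL O (dvd_of_eq rfl) hpN) tA x
    have h1 : f1 O pr hpr p hp M hpM lamBase x
        = locMapOf (coresL O (dvd_refl (M * p)) hpM)
            (fun t x => coresL_actN O pr hpr hp hpM _ t x) _ x := by
      apply Subtype.ext
      rw [coe_f1, coe_locMapOf, coresL_apply, resLe_refl]
    rw [h1, hsq, coresL_apply, resLe_refl]
  · have hsq := square S t1 t2 (coresDL O (dvd_refl (M * p)) hpM)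
      (fun t x => coresDL_actN O pr hpr hp hpM _ t x) (coresDL O (dvd_of_eq rfl) hpN) tB x
    have h1 : f2 O pr hpr p hp M hpM lamBase x
        = locMapOf (coresDL O (dvd_refl (M * p)) hpM)
            (fun t x => coresDL_actN O pr hpr hp hpM _ t x) _ x := by
      apply Subtype.ext
      rw [coe_f2, coe_locMapOf, coresDL_apply, resLe_refl]
    rw [h1, hsq, coresDL_apply, resLe_refl]

end PairEquiv

/-! ### the pair twin of `FreeLevelInst.exists_baseEquiv_M0` -/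

section Base

variable {Nl p : ℕ} [NeZero Nl] [NeZero (Nl * p)] [hpF : Fact p.Prime] (hpNl : ¬ p ∣ Nl)
variable (Sy : Symbols (Nl * p)) (hrN : ∀ j, Sy.r j ∣ Nl)
variable {O : Type} [CommRing O] [IsLocalRing O] [IsNoetherianRing O]
  [IsAdicComplete (IsLocalRing.maximalIdeal O) O]
variable {κ : Type} [Field κ] [Algebra O κ]
variable [DecidableEq Sy.ι₁] [DecidableEq Sy.ι₂]
variable (Δs : ℕ → Type) [∀ i, CommGroup (Δs i)] [∀ i, Fintype (Δs i)]
  (ψ : ∀ i, (ZMod (Nl * p))ˣ →* Δs i) (ψ' : ∀ i, (ZMod Nl)ˣ →* Δs i)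
  (hΘ0 : Theta Δs ψ 0 = thQ (Theta Δs ψ' 0) p)

include hpNl hrN in
/-- the symbols of the tower are away from `p` -/
theorem prSy_ne_p (s : Sy.ι₁ ⊕ Sy.ι₂) : prSy Sy s ≠ p := by
  rcases s with i | j
  · intro h
    have h' : Sy.ℓ i = p := h
    exact Sy.hℓN i (by rw [h']; exact Dvd.intro_left Nl rfl)
  · intro h
    have h' : Sy.r j = p := h
    exact hpNl (by rw [← h']; exact hrN j)

set_option maxHeartbeats 800000 in
include hpNl hrN in
/-- the abstract form of `exists_baseEquiv_pair`: the Hecke action `aH` on `Hom(Γ_H(θ'₀), O)` at the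
level `Nl`, the action `b` on `Hom(Γ₀(Nl), O)` and the two base maps `fα`, `fβ` are given through
their characterisations (so that the symbols `restrict Sy hrN` do not enter the proof). -/
theorem exists_baseEquiv_pair_abs (hℓ : Function.Injective Sy.ℓ) (hr : Function.Injective Sy.r)
    (hsurj : Function.Surjective (algebraMap O κ)) (M : ℕ) [NeZero M] (hpM : ¬ p ∣ M)
    (lamBase lamTop : Sy.𝕋 O →ₐ[O] κ) (α β : Sy.ι₁ ⊕ Sy.ι₂ → O) (Q : Finset (Sy.ι₁ ⊕ Sy.ι₂))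
    (hN : Nl = M * ∏ s ∈ Q, prSy Sy s) (hQM : ∀ s ∈ Q, ¬ prSy Sy s ∣ M)
    (hTW : ∀ s ∈ Q, TWCond (prSy Sy) lamBase lamTop α β s)
    (haway : ∀ s, s ∉ Q → lamTop (X s) = lamBase (X s))
    {σ' : Type} (pr' : σ' → ℕ) (hpr' : ∀ s, (pr' s).Prime) (hp' : ∀ s, pr' s ≠ p)
    (f : Sy.ι₁ ⊕ Sy.ι₂ → σ') (hf : ∀ s, pr' (f s) = prSy Sy s) (hfs : Function.Surjective f)
    (lam' : MvPolynomial σ' O →ₐ[O] κ)
    (hlam : lamBase = lam'.comp (rename f : Sy.𝕋 O →ₐ[O] MvPolynomial σ' O))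
    (aH : Sy.𝕋 O →ₐ[O] Module.End O (Additive (GammaH (Theta Δs ψ' 0)) →+ O))
    (b : Sy.𝕋 O →ₐ[O] Module.End O (Additive (Gamma0 Nl) →+ O))
    (hb : actN O (prSy Sy) (prSy_prime Sy) Nl = b)
    (hres : ∀ t φ, resH (Theta Δs ψ' 0) O (b t φ) = aH t (resH (Theta Δs ψ' 0) O φ))
    (fα fβ : M0 Sy (RingHom.ker (lamTop : Sy.𝕋 O →+* κ)) Δs ψ →
      ↥(Base.locSub aH (RingHom.ker (lamTop : Sy.𝕋 O →+* κ))))
    (hfα : ∀ y, ((fα y : ↥(Base.locSub aH (RingHom.ker (lamTop : Sy.𝕋 O →+* κ)))) :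
        Additive (GammaH (Theta Δs ψ' 0)) →+ O)
      = coresq (Theta Δs ψ' 0) hpNl O (castΘ hΘ0 O y.1))
    (hfβ : ∀ y, ((fβ y : ↥(Base.locSub aH (RingHom.ker (lamTop : Sy.𝕋 O →+* κ)))) :
        Additive (GammaH (Theta Δs ψ' 0)) →+ O)
      = coresDq (Theta Δs ψ' 0) hpNl O (castΘ hΘ0 O y.1)) :
    ∃ (ρ : Sy.𝕋 O →ₐ[O] Sy.𝕋 O)
      (eF : M0 Sy (RingHom.ker (lamTop : Sy.𝕋 O →+* κ)) Δs ψ ≃ₗ[O] baseF O pr' hpr' p M lam')
      (eG : ↥(Base.locSub aH (RingHom.ker (lamTop : Sy.𝕋 O →+* κ))) ≃ₗ[O]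
        baseG O pr' hpr' M lam'),
      (∀ t y, eF (act0 Sy (RingHom.ker (lamTop : Sy.𝕋 O →+* κ)) Δs ψ t y)
        = actBF O pr' hpr' p M lam' (rename f (ρ t)) (eF y)) ∧
      (∀ t y, eG (Base.locSubAct aH (RingHom.ker (lamTop : Sy.𝕋 O →+* κ)) t y)
        = actBG O pr' hpr' M lam' (rename f (ρ t)) (eG y)) ∧
      (∀ s, s ∉ Q → ρ (X s) = X s) ∧ lamBase.comp ρ = lamTop ∧
      (∀ y, eG (fα y) = f1 O pr' hpr' p hp' M hpM lam' (eF y)) ∧
      (∀ y, eG (fβ y) = f2 O pr' hpr' p hp' M hpM lam' (eF y)) := by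
  have hp : ∀ s, prSy Sy s ≠ p := prSy_ne_p hpNl Sy hrN
  have hpair := exists_pairEquiv (prSy Sy) (prSy_prime Sy) p hp (prSy_injective Sy hℓ hr) hsurj M
    hpM lamBase lamTop α β Q Nl hpNl hN hQM hTW haway (HeckeActH.act0 Sy O) (actN_eq_act0 Sy O)
    b hb
  obtain ⟨ρ, eX, eY, heX, heY, hρ, hlamρ, sqA, sqB⟩ := hpair
  -- the relabelling
  have hren : Function.Surjective
      (rename f : Sy.𝕋 O →ₐ[O] MvPolynomial σ' O) := rename_surjective f hfs
  have hactF : actN O (prSy Sy) (prSy_prime Sy) (M * p)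
      = (actN O pr' hpr' (M * p)).comp (rename f : Sy.𝕋 O →ₐ[O] MvPolynomial σ' O) :=
    actN_comp_rename O (prSy Sy) (prSy_prime Sy) pr' hpr' f hf (M * p)
  have hactG : actN O (prSy Sy) (prSy_prime Sy) M
      = (actN O pr' hpr' M).comp (rename f : Sy.𝕋 O →ₐ[O] MvPolynomial σ' O) :=
    actN_comp_rename O (prSy Sy) (prSy_prime Sy) pr' hpr' f hf M
  let e₂F := locSubEquivKer (rename f : Sy.𝕋 O →ₐ[O] MvPolynomial σ' O) hren
    (actN O (prSy Sy) (prSy_prime Sy) (M * p)) (actN O pr' hpr' (M * p)) hactF lamBase lam' hlam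
  let e₂G := locSubEquivKer (rename f : Sy.𝕋 O →ₐ[O] MvPolynomial σ' O) hren
    (actN O (prSy Sy) (prSy_prime Sy) M) (actN O pr' hpr' M) hactG lamBase lam' hlam
  -- the bases of the two towers
  let e₀F := BaseGamma0.baseEquiv Sy (RingHom.ker (lamTop : Sy.𝕋 O →+* κ)) (Theta Δs ψ 0)
  have hresE : ∀ t φ, BaseGamma0.resEquiv (Theta Δs ψ' 0) O (b t φ)
      = aH t (BaseGamma0.resEquiv (Theta Δs ψ' 0) O φ) := by
    intro t φ
    rw [BaseGamma0.resEquiv_apply, BaseGamma0.resEquiv_apply]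
    exact hres t φ
  let e₀G := BaseGamma0.locSubEquiv b aH (RingHom.ker (lamTop : Sy.𝕋 O →+* κ))
    (BaseGamma0.resEquiv (Theta Δs ψ' 0) O) hresE
  have hc₀F : ∀ x, ((e₀F x : M0 Sy (RingHom.ker (lamTop : Sy.𝕋 O →+* κ)) Δs ψ) :
        Additive (GammaH (Theta Δs ψ 0)) →+ O)
      = resH (Theta Δs ψ 0) O (x : Additive (Gamma0 (Nl * p)) →+ O) :=
    fun x => BaseGamma0.coe_baseEquiv Sy _ _ x
  have hc₀G : ∀ x, ((e₀G x : ↥(Base.locSub aH (RingHom.ker (lamTop : Sy.𝕋 O →+* κ)))) :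
        Additive (GammaH (Theta Δs ψ' 0)) →+ O)
      = resH (Theta Δs ψ' 0) O (x : Additive (Gamma0 Nl) →+ O) :=
    fun x => BaseGamma0.resEquiv_apply _ O _
  -- the squares at the level of `Γ_H`
  have hsqα : ∀ x, fα (e₀F (eX x))
      = e₀G (eY (f1 O (prSy Sy) (prSy_prime Sy) p hp M hpM lamBase x)) := by
    intro x
    apply Subtype.ext
    rw [hfα, hc₀F, hc₀G, sqA]
    exact coresq_cast_resH (Theta Δs ψ' 0) hpNl (Theta Δs ψ 0) hΘ0 _
  have hsqβ : ∀ x, fβ (e₀F (eX x))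
      = e₀G (eY (f2 O (prSy Sy) (prSy_prime Sy) p hp M hpM lamBase x)) := by
    intro x
    apply Subtype.ext
    rw [hfβ, hc₀F, hc₀G, sqB]
    exact coresDq_cast_resH (Theta Δs ψ' 0) hpNl (Theta Δs ψ 0) hΘ0 _
  -- the relabelling commutes with the fixed maps
  have hrel1 : ∀ x, e₂G (f1 O (prSy Sy) (prSy_prime Sy) p hp M hpM lamBase x)
      = f1 O pr' hpr' p hp' M hpM lam' (e₂F x) := fun x => Subtype.ext rfl
  have hrel2 : ∀ x, e₂G (f2 O (prSy Sy) (prSy_prime Sy) p hp M hpM lamBase x)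
      = f2 O pr' hpr' p hp' M hpM lam' (e₂F x) := fun x => Subtype.ext rfl
  refine ⟨ρ, (e₀F.symm.trans eX.symm).trans e₂F, (e₀G.symm.trans eY.symm).trans e₂G,
    fun t y => ?_, fun t y => ?_, hρ, hlamρ, fun y => ?_, fun y => ?_⟩
  · -- equivariance of `eF`
    have h0 : e₀F.symm (act0 Sy (RingHom.ker (lamTop : Sy.𝕋 O →+* κ)) Δs ψ t y)
        = Base.locSubAct (HeckeActH.act0 Sy O) (RingHom.ker (lamTop : Sy.𝕋 O →+* κ)) t
            (e₀F.symm y) := by
      apply e₀F.injective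
      rw [LinearEquiv.apply_symm_apply]
      show _ = BaseGamma0.baseEquiv Sy _ (Theta Δs ψ 0) _
      rw [BaseGamma0.baseEquiv_act]
      show _ = Base.locSubAct _ _ t (e₀F (e₀F.symm y))
      rw [LinearEquiv.apply_symm_apply]
    have h1 : eX.symm (Base.locSubAct (HeckeActH.act0 Sy O)
          (RingHom.ker (lamTop : Sy.𝕋 O →+* κ)) t (e₀F.symm y))
        = GB.B8.LevelStage.locAct (actN O (prSy Sy) (prSy_prime Sy) (M * p))
            (RingHom.ker (lamBase : Sy.𝕋 O →+* κ)) (ρ t) (eX.symm (e₀F.symm y)) := by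
      apply eX.injective
      rw [LinearEquiv.apply_symm_apply, heX, LinearEquiv.apply_symm_apply]
    rw [LinearEquiv.trans_apply, LinearEquiv.trans_apply, h0, h1]
    exact locSubEquivKer_act _ hren _ _ hactF lamBase lam' hlam (ρ t) _
  · -- equivariance of `eG`
    have h0 : e₀G.symm (Base.locSubAct aH (RingHom.ker (lamTop : Sy.𝕋 O →+* κ)) t y)
        = Base.locSubAct b (RingHom.ker (lamTop : Sy.𝕋 O →+* κ)) t (e₀G.symm y) := by
      apply e₀G.injective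
      rw [LinearEquiv.apply_symm_apply]
      show _ = BaseGamma0.locSubEquiv b aH _ _ hresE _
      rw [BaseGamma0.locSubEquiv_act]
      show _ = Base.locSubAct _ _ t (e₀G (e₀G.symm y))
      rw [LinearEquiv.apply_symm_apply]
    have h1 : eY.symm (Base.locSubAct b (RingHom.ker (lamTop : Sy.𝕋 O →+* κ)) t (e₀G.symm y))
        = GB.B8.LevelStage.locAct (actN O (prSy Sy) (prSy_prime Sy) M)
            (RingHom.ker (lamBase : Sy.𝕋 O →+* κ)) (ρ t) (eY.symm (e₀G.symm y)) := by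
      apply eY.injective
      rw [LinearEquiv.apply_symm_apply, heY, LinearEquiv.apply_symm_apply]
    rw [LinearEquiv.trans_apply, LinearEquiv.trans_apply, h0, h1]
    exact locSubEquivKer_act _ hren _ _ hactG lamBase lam' hlam (ρ t) _
  · -- the square of `α_*`
    have hy : y = e₀F (eX (eX.symm (e₀F.symm y))) := by
      rw [LinearEquiv.apply_symm_apply, LinearEquiv.apply_symm_apply]
    rw [LinearEquiv.trans_apply, LinearEquiv.trans_apply, LinearEquiv.trans_apply,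
      LinearEquiv.trans_apply, ← hrel1]
    congr 1
    apply eY.injective
    apply e₀G.injective
    rw [LinearEquiv.apply_symm_apply, LinearEquiv.apply_symm_apply, ← hsqα, ← hy]
  · -- the square of `β_*`
    have hy : y = e₀F (eX (eX.symm (e₀F.symm y))) := by
      rw [LinearEquiv.apply_symm_apply, LinearEquiv.apply_symm_apply]
    rw [LinearEquiv.trans_apply, LinearEquiv.trans_apply, LinearEquiv.trans_apply,
      LinearEquiv.trans_apply, ← hrel2]
    congr 1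
    apply eY.injective
    apply e₀G.injective
    rw [LinearEquiv.apply_symm_apply, LinearEquiv.apply_symm_apply, ← hsqβ, ← hy]

include hpNl in
/-- **THE PAIR OF BASE EQUIVALENCES.**  For Hecke symbols `Sy` at the level `Nl p`,
`Nl = M ∏_{s ∈ Q} pr s` (all `U`-primes dividing `Nl`): the bases of the two Taylor–Wiles towers at
the levels `Nl p` and `Nl` are the FIXED modules `baseF`, `baseG` at the levels `M p`, `M`, for ANY
surjective relabelling `f` of the symbols by their primes, equivariantly up to ONE substitution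
`rename f ∘ ρ`, and the base maps `f0αE`, `f0βE` become the FIXED maps `f1 = cores_p`,
`f2 = cores_{p,δ}`. -/
theorem exists_baseEquiv_pair (hℓ : Function.Injective Sy.ℓ) (hr : Function.Injective Sy.r)
    (hsurj : Function.Surjective (algebraMap O κ)) (M : ℕ) [NeZero M] (hpM : ¬ p ∣ M)
    (lamBase lamTop : Sy.𝕋 O →ₐ[O] κ) (α β : Sy.ι₁ ⊕ Sy.ι₂ → O) (Q : Finset (Sy.ι₁ ⊕ Sy.ι₂))
    (hN : Nl = M * ∏ s ∈ Q, prSy Sy s) (hQM : ∀ s ∈ Q, ¬ prSy Sy s ∣ M)
    (hTW : ∀ s ∈ Q, TWCond (prSy Sy) lamBase lamTop α β s)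
    (haway : ∀ s, s ∉ Q → lamTop (X s) = lamBase (X s))
    (𝔪 : Ideal (Sy.𝕋 O)) (h𝔪 : 𝔪 = RingHom.ker (lamTop : Sy.𝕋 O →+* κ))
    {σ' : Type} (pr' : σ' → ℕ) (hpr' : ∀ s, (pr' s).Prime) (hp' : ∀ s, pr' s ≠ p)
    (f : Sy.ι₁ ⊕ Sy.ι₂ → σ') (hf : ∀ s, pr' (f s) = prSy Sy s) (hfs : Function.Surjective f)
    (lam' : MvPolynomial σ' O →ₐ[O] κ)
    (hlam : lamBase = lam'.comp (rename f : Sy.𝕋 O →ₐ[O] MvPolynomial σ' O)) :
    ∃ (ρ : Sy.𝕋 O →ₐ[O] Sy.𝕋 O)
      (eF : M0 Sy 𝔪 Δs ψ ≃ₗ[O] baseF O pr' hpr' p M lam')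
      (eG : ↥(Base.locSub (actH (restrict Sy hrN) O (Theta Δs ψ' 0)) 𝔪) ≃ₗ[O]
        baseG O pr' hpr' M lam'),
      (∀ (t : Sy.𝕋 O) y, eF (act0 Sy 𝔪 Δs ψ t y)
        = actBF O pr' hpr' p M lam' (rename f (ρ t)) (eF y)) ∧
      (∀ (t : Sy.𝕋 O) y, eG (Base.locSubAct (actH (restrict Sy hrN) O (Theta Δs ψ' 0)) 𝔪 t y)
        = actBG O pr' hpr' M lam' (rename f (ρ t)) (eG y)) ∧
      (∀ s, s ∉ Q → ρ (X s) = X s) ∧ lamBase.comp ρ = lamTop ∧
      (∀ y, eG (f0αE hpNl Δs ψ' Sy hrN 𝔪 ψ hΘ0 y) = f1 O pr' hpr' p hp' M hpM lam' (eF y)) ∧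
      (∀ y, eG (f0βE hpNl Δs ψ' Sy hrN 𝔪 ψ hΘ0 y) = f2 O pr' hpr' p hp' M hpM lam' (eF y)) := by
  subst h𝔪
  exact exists_baseEquiv_pair_abs hpNl Sy hrN Δs ψ ψ' hΘ0 hℓ hr hsurj M hpM lamBase lamTop α β Q
    hN hQM hTW haway pr' hpr' hp' f hf hfs lam' hlam
    (actH (restrict Sy hrN) O (Theta Δs ψ' 0)) (HeckeActH.act0 (restrict Sy hrN) O)
    (actN_eq_act0 (restrict Sy hrN) O)
    (fun t φ => resH_act (restrict Sy hrN) O (Theta Δs ψ' 0) t φ)
    (fun y => f0αE hpNl Δs ψ' Sy hrN (RingHom.ker (lamTop : Sy.𝕋 O →+* κ)) ψ hΘ0 y)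
    (fun y => f0βE hpNl Δs ψ' Sy hrN (RingHom.ker (lamTop : Sy.𝕋 O →+* κ)) ψ hΘ0 y)
    (fun y => coe_f0αE hpNl Δs ψ' Sy hrN (RingHom.ker (lamTop : Sy.𝕋 O →+* κ)) ψ hΘ0 y)
    (fun y => coe_f0βE hpNl Δs ψ' Sy hrN (RingHom.ker (lamTop : Sy.𝕋 O →+* κ)) ψ hΘ0 y)

end Base

/-! ### transport of a morphism of levels to the fixed bases -/

section MapHom

variable {O : Type} [CommRing O] [IsLocalRing O] {𝕋 : Type} [CommRing 𝕋] [Algebra O 𝕋]
  {M0 : Type} [AddCommGroup M0] [Module O M0] {act0 : 𝕋 →ₐ[O] Module.End O M0}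
  {P0 : Type} [AddCommGroup P0] [Module O P0] {actP0 : 𝕋 →ₐ[O] Module.End O P0}
  {k : ℕ} {N : Fin k → ℕ} {F : FreeLevel O 𝕋 M0 act0 k N} {G : FreeLevel O 𝕋 P0 actP0 k N}
  {f0 : M0 →ₗ[O] P0}
  {M0' : Type} [AddCommGroup M0'] [Module O M0'] (act0' : 𝕋 →ₐ[O] Module.End O M0')
  (eF : M0 ≃ₗ[O] M0') (heF : ∀ t y, eF (act0 t y) = act0' t (eF y))
  {P0' : Type} [AddCommGroup P0'] [Module O P0'] (actP0' : 𝕋 →ₐ[O] Module.End O P0')
  (eG : P0 ≃ₗ[O] P0') (heG : ∀ t y, eG (actP0 t y) = actP0' t (eG y))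

/-- **transport of a morphism of levels along equivalences of the two base modules**
(`MapBase.mapBase` on both sides): the SAME map `f`, over the transported base map. -/
def mapBaseHom (φ : LevelHom F G f0) (f0' : M0' →ₗ[O] P0')
    (hsq : ∀ y, eG (f0 y) = f0' (eF y)) :
    LevelHom (mapBase F act0' eF heF) (mapBase G actP0' eG heG) f0' where
  f := φ.f
  f_D := φ.f_D
  f_act := φ.f_act
  f_π x := (congrArg eG (φ.f_π x)).trans (hsq (F.π x))

@[simp] theorem mapBaseHom_f (φ : LevelHom F G f0) (f0' : M0' →ₗ[O] P0')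
    (hsq : ∀ y, eG (f0 y) = f0' (eF y)) :
    (mapBaseHom act0' eF heF actP0' eG heG φ f0' hsq).f = φ.f := rfl

/-- the kernel of the pair of transported morphisms is the kernel of the pair -/
theorem ker_prod_mapBaseHom {f0₂ : M0 →ₗ[O] P0} (φ₁ : LevelHom F G f0) (φ₂ : LevelHom F G f0₂)
    (f0' f0₂' : M0' →ₗ[O] P0') (hsq₁ : ∀ y, eG (f0 y) = f0' (eF y))
    (hsq₂ : ∀ y, eG (f0₂ y) = f0₂' (eF y)) :
    LinearMap.ker (LevelHom.prod (mapBase G actP0' eG heG) (mapBase G actP0' eG heG)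
        (mapBaseHom act0' eF heF actP0' eG heG φ₁ f0' hsq₁)
        (mapBaseHom act0' eF heF actP0' eG heG φ₂ f0₂' hsq₂)).f
      = LinearMap.ker (LevelHom.prod G G φ₁ φ₂).f := rfl

/-- **transport of a morphism of levels along an equality of the diamond orders**
(`FreeLevelInst.castN` on both sides): the SAME map `f`. -/
def castNHom {N₂ : Fin k → ℕ} (h : N = N₂) (φ : LevelHom F G f0) :
    LevelHom (castN h F) (castN h G) f0 where
  f := φ.f
  f_D := φ.f_D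
  f_act := φ.f_act
  f_π := φ.f_π

@[simp] theorem castNHom_f {N₂ : Fin k → ℕ} (h : N = N₂) (φ : LevelHom F G f0) :
    (castNHom h φ).f = φ.f := rfl

theorem ker_prod_castNHom {N₂ : Fin k → ℕ} (h : N = N₂) {f0₂ : M0 →ₗ[O] P0}
    (φ₁ : LevelHom F G f0) (φ₂ : LevelHom F G f0₂) :
    LinearMap.ker (LevelHom.prod (castN h G) (castN h G) (castNHom h φ₁) (castNHom h φ₂)).f
      = LinearMap.ker (LevelHom.prod G G φ₁ φ₂).f := rfl

end MapHom

/-! ### the one-call form -/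

section OneCall

variable {Nl p : ℕ} [NeZero Nl] [NeZero (Nl * p)] [hpF : Fact p.Prime] (hpNl : ¬ p ∣ Nl)
variable (Sy : Symbols (Nl * p)) (hrN : ∀ j, Sy.r j ∣ Nl)
variable {O : Type} [CommRing O] [IsLocalRing O] [IsNoetherianRing O]
  [IsAdicComplete (IsLocalRing.maximalIdeal O) O]
variable {κ : Type} [Field κ] [Algebra O κ]
variable [DecidableEq Sy.ι₁] [DecidableEq Sy.ι₂]
variable (Δs : ℕ → Type) [∀ i, CommGroup (Δs i)] [∀ i, Fintype (Δs i)]
  (ψ : ∀ i, (ZMod (Nl * p))ˣ →* Δs i) (ψ' : ∀ i, (ZMod Nl)ˣ →* Δs i)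
  (hΘ0 : Theta Δs ψ 0 = thQ (Theta Δs ψ' 0) p)

/-- the Hecke action of the symbols of the tower on the fixed base `baseF`: the substitution `ρ`,
then the relabelling by primes -/
noncomputable abbrev actFix {σ' : Type} (pr' : σ' → ℕ) (hpr' : ∀ s, (pr' s).Prime) (M : ℕ)
    (lam' : MvPolynomial σ' O →ₐ[O] κ) (f : Sy.ι₁ ⊕ Sy.ι₂ → σ') (ρ : Sy.𝕋 O →ₐ[O] Sy.𝕋 O) :
    Sy.𝕋 O →ₐ[O] Module.End O (baseF O pr' hpr' p M lam') :=
  (actBF O pr' hpr' p M lam').comp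
    ((rename f : Sy.𝕋 O →ₐ[O] MvPolynomial σ' O).comp ρ)

/-- the same on `baseG` -/
noncomputable abbrev actFixG {σ' : Type} (pr' : σ' → ℕ) (hpr' : ∀ s, (pr' s).Prime) (M : ℕ)
    (lam' : MvPolynomial σ' O →ₐ[O] κ) (f : Sy.ι₁ ⊕ Sy.ι₂ → σ') (ρ : Sy.𝕋 O →ₐ[O] Sy.𝕋 O) :
    Sy.𝕋 O →ₐ[O] Module.End O (baseG O pr' hpr' M lam') :=
  (actBG O pr' hpr' M lam').comp
    ((rename f : Sy.𝕋 O →ₐ[O] MvPolynomial σ' O).comp ρ)

include hpNl in
/-- **(g1), ONE CALL.**  ANY pair of morphisms of levels `φα`, `φβ` over the base maps `f0αE`, `f0βE`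
of `P2/Main` (e.g. the output of `Main.exists_levelHom_primeData` / `MainPlug.exists_kerData`) is a
pair of morphisms of levels over the FIXED base maps `f1 = cores_p`, `f2 = cores_{p,δ}` between the
FIXED bases `baseF`, `baseG`: SAME modules, diamonds, Hecke actions, SAME maps (`ΦA.f = φα.f`,
`ΦB.f = φβ.f`), only the projections are composed with the base equivalences `eF`, `eG`. -/
theorem exists_levelHom_fixedBase (hℓ : Function.Injective Sy.ℓ) (hr : Function.Injective Sy.r)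
    (hsurj : Function.Surjective (algebraMap O κ)) (M : ℕ) [NeZero M] (hpM : ¬ p ∣ M)
    (lamBase lamTop : Sy.𝕋 O →ₐ[O] κ) (α β : Sy.ι₁ ⊕ Sy.ι₂ → O) (Q : Finset (Sy.ι₁ ⊕ Sy.ι₂))
    (hN : Nl = M * ∏ s ∈ Q, prSy Sy s) (hQM : ∀ s ∈ Q, ¬ prSy Sy s ∣ M)
    (hTW : ∀ s ∈ Q, TWCond (prSy Sy) lamBase lamTop α β s)
    (haway : ∀ s, s ∉ Q → lamTop (X s) = lamBase (X s))
    (𝔪 : Ideal (Sy.𝕋 O)) (h𝔪 : 𝔪 = RingHom.ker (lamTop : Sy.𝕋 O →+* κ))
    {σ' : Type} (pr' : σ' → ℕ) (hpr' : ∀ s, (pr' s).Prime) (hp' : ∀ s, pr' s ≠ p)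
    (f : Sy.ι₁ ⊕ Sy.ι₂ → σ') (hf : ∀ s, pr' (f s) = prSy Sy s) (hfs : Function.Surjective f)
    (lam' : MvPolynomial σ' O →ₐ[O] κ)
    (hlam : lamBase = lam'.comp (rename f : Sy.𝕋 O →ₐ[O] MvPolynomial σ' O))
    {k : ℕ} {Nk : Fin k → ℕ}
    (F : FreeLevel O (Sy.𝕋 O) (M0 Sy 𝔪 Δs ψ) (act0 Sy 𝔪 Δs ψ) k Nk)
    (G : FreeLevel O (Sy.𝕋 O) (Base.locSub (actH (restrict Sy hrN) O (Theta Δs ψ' 0)) 𝔪)
      (Base.locSubAct (actH (restrict Sy hrN) O (Theta Δs ψ' 0)) 𝔪) k Nk)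
    (φα : LevelHom F G (f0αE hpNl Δs ψ' Sy hrN 𝔪 ψ hΘ0))
    (φβ : LevelHom F G (f0βE hpNl Δs ψ' Sy hrN 𝔪 ψ hΘ0)) :
    ∃ (ρ : Sy.𝕋 O →ₐ[O] Sy.𝕋 O)
      (eF : M0 Sy 𝔪 Δs ψ ≃ₗ[O] baseF O pr' hpr' p M lam')
      (eG : ↥(Base.locSub (actH (restrict Sy hrN) O (Theta Δs ψ' 0)) 𝔪) ≃ₗ[O]
        baseG O pr' hpr' M lam')
      (heF : ∀ t y, eF (act0 Sy 𝔪 Δs ψ t y) = actFix Sy pr' hpr' M lam' f ρ t (eF y))
      (heG : ∀ (t : Sy.𝕋 O) y,
        eG (Base.locSubAct (actH (restrict Sy hrN) O (Theta Δs ψ' 0)) 𝔪 t y)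
          = actFixG Sy pr' hpr' M lam' f ρ t (eG y))
      (ΦA : LevelHom (mapBase F (actFix Sy pr' hpr' M lam' f ρ) eF heF)
        (mapBase G (actFixG Sy pr' hpr' M lam' f ρ) eG heG) (f1 O pr' hpr' p hp' M hpM lam'))
      (ΦB : LevelHom (mapBase F (actFix Sy pr' hpr' M lam' f ρ) eF heF)
        (mapBase G (actFixG Sy pr' hpr' M lam' f ρ) eG heG) (f2 O pr' hpr' p hp' M hpM lam')),
      ΦA.f = φα.f ∧ ΦB.f = φβ.f ∧
      (∀ s, s ∉ Q → ρ (X s) = X s) ∧ lamBase.comp ρ = lamTop := by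
  have key := exists_baseEquiv_pair hpNl Sy hrN Δs ψ ψ' hΘ0 hℓ hr hsurj M hpM lamBase lamTop α β
    Q hN hQM hTW haway 𝔪 h𝔪 pr' hpr' hp' f hf hfs lam' hlam
  obtain ⟨ρ, eF, eG, heF, heG, hρ, hlamρ, sqα, sqβ⟩ := key
  refine ⟨ρ, eF, eG, heF, heG,
    mapBaseHom (M0' := baseF O pr' hpr' p M lam') (P0' := baseG O pr' hpr' M lam')
      (actFix Sy pr' hpr' M lam' f ρ) eF heF (actFixG Sy pr' hpr' M lam' f ρ) eG heG
      φα (f1 O pr' hpr' p hp' M hpM lam') sqα,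
    mapBaseHom (M0' := baseF O pr' hpr' p M lam') (P0' := baseG O pr' hpr' M lam')
      (actFix Sy pr' hpr' M lam' f ρ) eF heF (actFixG Sy pr' hpr' M lam' f ρ) eG heG
      φβ (f2 O pr' hpr' p hp' M hpM lam') sqβ, ?_, ?_, hρ, hlamρ⟩
  · rfl
  · rfl

end OneCall

end GE8.RaiseP.G1.PairBase

end Fermat.Agent.GE8.P3B
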