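/-
GATE-E / RISK-4 PNEW-STAGE, leaf R4-G (g1), file 6 (helper15): **the fixed base maps of `PairBase`
are helper4's canonical pair** (`Hf0Hom.coresLoc`, `Hf0Hom.coresDLoc`), hence `hf0`.

* `f1_eq_coresLoc`, `f2_eq_coresDLoc` : `PairBase.f1 = Hf0Hom.coresLoc … rfl …`,
  `PairBase.f2 = Hf0Hom.coresDLoc … rfl …` (level literal `M * p`, ideal `ker lam'`);
* `coe_f1_at`, `coe_f2_at` : the underlying maps are helper41's `coresAtLin`, `coresDAtLin`;
* **`surjective_f1_prod_f2`** : the binder `hf0` of `BaseB.NewSide` for `(f1, f2)`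
  (`Hf0Hom.surjective_prod_of_coe`).
-/
import Mathlib
import Fermat.Agent.GE8.P3B.GE8.RaiseP.Hf0Hom
import Fermat.Agent.GE8.P3B.GE8.RaiseP.G1.PairBase
import Fermat.Agent.GE8.P3B.StepGen
import Fermat.Agent.GE8.P3B.Ok3W

/- TWIN (helper6 B4 generator; conventions of helper24 / helper86) of `Fermat.Agent.GE8.RaiseP.G1.PairBridge` with `p ≠ 3` relaxed to `Ok3A Sy 𝔪 p` / `Ok3W p W` (RISK-5 fix (B), step B4); everything below lives in the wrapper namespace `Fermat.Agent.GE8.P3B`. -/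
set_option linter.dupNamespace false
open Fermat Fermat.Agent Fermat.Agent.GB Fermat.Agent.GB.B8 Fermat.Agent.GB.B8.LevelGen Fermat.Agent.GB.B8.LevelStage Fermat.Agent.GE8 Fermat.Agent.GE8.RaiseP Fermat.Agent.GE8.RaiseP.DegCommGen Fermat.Agent.GE8.RaiseP.G1 Fermat.Agent.GM Fermat.Agent.GM.B

namespace Fermat.Agent.GE8.P3B

set_option autoImplicit false
set_option linter.unusedSectionVars false

open scoped MatrixGroups
open CongruenceSubgroup

namespace GE8.RaiseP.G1.PairBridge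

open MvPolynomial
open GM.B
open GB.B8.LevelStage GB.B8.LevelGen
open GE8.RaiseP.DegCommGen GE8.RaiseP.Hf0Hom
open GE8.RaiseP.G1.PairBase

section Bridge

variable (O : Type) [CommRing O] {σ' : Type} (pr' : σ' → ℕ) (hpr' : ∀ s, (pr' s).Prime)
  (p : ℕ) [Fact p.Prime] (hp' : ∀ s, pr' s ≠ p) (M : ℕ) (hpM : ¬ p ∣ M)
  {κ : Type} [Field κ] [Algebra O κ] (lam' : MvPolynomial σ' O →ₐ[O] κ)

theorem coe_f1_at (x : baseF O pr' hpr' p M lam') :
    ((f1 O pr' hpr' p hp' M hpM lam' x : baseG O pr' hpr' M lam') : Additive (Gamma0 M) →+ O)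
      = coresAtLin O rfl hpM (x : Additive (Gamma0 (M * p)) →+ O) := by
  rw [coe_f1, coresAtLin_apply, coresAt_rfl]

theorem coe_f2_at (x : baseF O pr' hpr' p M lam') :
    ((f2 O pr' hpr' p hp' M hpM lam' x : baseG O pr' hpr' M lam') : Additive (Gamma0 M) →+ O)
      = coresDAtLin O rfl hpM (x : Additive (Gamma0 (M * p)) →+ O) := by
  rw [coe_f2, coresDAtLin_apply, coresDAt_rfl]

/-- **`PairBase.f1` is helper4's canonical `coresLoc`** -/
theorem f1_eq_coresLoc :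
    f1 O pr' hpr' p hp' M hpM lam'
      = coresLoc pr' hpr' rfl hpM hp' (RingHom.ker (lam' : MvPolynomial σ' O →+* κ)) :=
  LinearMap.ext fun x => Subtype.ext ((coe_f1_at O pr' hpr' p hp' M hpM lam' x).trans
    (coe_coresLoc pr' hpr' rfl hpM hp' _ x).symm)

/-- **`PairBase.f2` is helper4's canonical `coresDLoc`** -/
theorem f2_eq_coresDLoc :
    f2 O pr' hpr' p hp' M hpM lam'
      = coresDLoc pr' hpr' rfl hpM hp' (RingHom.ker (lam' : MvPolynomial σ' O →+* κ)) :=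
  LinearMap.ext fun x => Subtype.ext ((coe_f2_at O pr' hpr' p hp' M hpM lam' x).trans
    (coe_coresDLoc pr' hpr' rfl hpM hp' _ x).symm)

end Bridge

section Hf0

variable {O : Type} [CommRing O] [IsLocalRing O] [IsNoetherianRing O]
  [IsAdicComplete (IsLocalRing.maximalIdeal O) O] [IsDomain O] [CharZero O]
  {σ' : Type} (pr' : σ' → ℕ) (hpr' : ∀ s, (pr' s).Prime)
  {p : ℕ} [Fact p.Prime] (hp' : ∀ s, pr' s ≠ p) {M : ℕ} [NeZero M] (hpM : ¬ p ∣ M)
  {κ : Type} [Field κ] [Algebra O κ] (lam' : MvPolynomial σ' O →ₐ[O] κ)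

/-- **`hf0` for the fixed base maps**: `(f1, f2) = (cores_p, cores_{p,δ})` is onto on the
`ker lam'`-primary parts (helper4's Hom-model dual Ihara). -/
theorem surjective_f1_prod_f2 (hp2 : p ≠ 2) (hpO : (p : O) ∈ IsLocalRing.maximalIdeal O)
    (hM : Squarefree M) [(RingHom.ker (lam' : MvPolynomial σ' O →+* κ)).IsMaximal]
    (s₀ : σ') (hs₀M : ¬ pr' s₀ ∣ M)
    (hτ : (X s₀ - C (((pr' s₀ + 1 : ℕ) : O)) : MvPolynomial σ' O)
      ∉ RingHom.ker (lam' : MvPolynomial σ' O →+* κ)) :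
    Function.Surjective
      ((f1 O pr' hpr' p hp' M hpM lam').prod (f2 O pr' hpr' p hp' M hpM lam')) :=
  surjective_prod_of_coe pr' hpr' rfl hpM hp2 hpO hM hp'
    (RingHom.ker (lam' : MvPolynomial σ' O →+* κ)) s₀ hs₀M hτ _ _
    (fun y => coe_f1_at O pr' hpr' p hp' M hpM lam' y)
    (fun y => coe_f2_at O pr' hpr' p hp' M hpM lam' y)

end Hf0

end GE8.RaiseP.G1.PairBridge

end Fermat.Agent.GE8.P3B
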