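/-
GATE-E / RISK-4 PNEW-STAGE, leaf R4-G (g1), file 7 (helper15): **the `p`-new kernel of the big level
over the FIXED bases, ONE CALL, level-agnostic conclusion.**

`P2/MainPlug.exists_kerData_ann` (the two morphisms of levels `φα`, `φβ` out of
`Plug.bigLevel Sy 𝔪 H h j`, the stability `hK` of `K = ker (φα.f, φβ.f)` under `twP`, and (ANN) for
`K`) composed with `PairBase.exists_baseEquiv_pair` / `mapBaseHom` (the bases become the FIXED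
`baseF`, `baseG`, the base maps the FIXED `f1 = cores_p`, `f2 = cores_{p,δ}`).  The conclusion
mentions neither `coresq`, `castθ` nor `restrict`: only `Plug.bigLevel`, the fixed objects,
`heckeAlgebra (N₀ * p)` and `LamNew`.  Hence it can be stated at a VARIABLE level `L = Nl * p`
(`exists_fixedBase_ann_var`, by `subst`), as needed at `Q.Sy : Symbols Q.N`.
-/
import Fermat.Agent.GE8.P3B.GE8.RaiseP.P2.MainPlug
import Fermat.Agent.GE8.P3B.GE8.RaiseP.G1.PairBase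
import Fermat.Agent.GE8.P3B.StepGen
import Fermat.Agent.GE8.P3B.Ok3W

/- TWIN (helper6 B4 generator; conventions of helper24 / helper86) of `Fermat.Agent.GE8.RaiseP.G1.PairPlug` with `p ≠ 3` relaxed to `Ok3A Sy 𝔪 p` / `Ok3W p W` (RISK-5 fix (B), step B4); everything below lives in the wrapper namespace `Fermat.Agent.GE8.P3B`. -/
set_option linter.dupNamespace false
open Fermat Fermat.Agent Fermat.Agent.GB Fermat.Agent.GB.B10 Fermat.Agent.GB.B10.L Fermat.Agent.GB.B10.L.ThetaNew Fermat.Agent.GB.B3 Fermat.Agent.GB.B3.EisGamma0 Fermat.Agent.GB.B3.GamH Fermat.Agent.GB.B3.HeckeActH Fermat.Agent.GB.B3.RealLevel Fermat.Agent.GB.B3.TWChars Fermat.Agent.GB.B3.TWLevel Fermat.Agent.GB.B4 Fermat.Agent.GB.B4.Datum Fermat.Agent.GB.B4.Datum.ImageRing Fermat.Agent.GB.B4.Twist Fermat.Agent.GB.B4.Twist.Asm Fermat.Agent.GB.B4.Twist.Coeff Fermat.Agent.GB.B7 Fermat.Agent.GB.B7.UqEquiv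 Fermat.Agent.GB.B7.UqSq Fermat.Agent.GB.B8 Fermat.Agent.GB.B8.LevelGen Fermat.Agent.GB.B8.LevelIter Fermat.Agent.GE6 Fermat.Agent.GE6.Inst Fermat.Agent.GE6.Inst.MapBase Fermat.Agent.GE8 Fermat.Agent.GE8.RaiseP Fermat.Agent.GE8.RaiseP.G1 Fermat.Agent.GE8.RaiseP.NewLevel Fermat.Agent.GE8.RaiseP.P2 Fermat.Agent.GE8.RaiseP.P2.Repin Fermat.Agent.GJ Fermat.Agent.GJ.J2 Fermat.Agent.GJ.J2.Lat Fermat.Agent.GJ.J2.LatAct Fermat.Agent.GJ.J2.ZStruct Fermat.Agent.GM Fermat.Agent.GM.Amalgam Fermat.Agent.GM.B Fermat.Agent.S16_helper49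

namespace Fermat.Agent.GE8.P3B

set_option autoImplicit false
set_option linter.unusedSectionVars false
set_option linter.unusedVariables false
set_option linter.style.haveILetI false

noncomputable section

open scoped MatrixGroups TensorProduct
open CongruenceSubgroup Matrix Matrix.SpecialLinearGroup ModularCurve.Period CuspForm
open S16_helper49 GM.B GM.Amalgam
open GB.B3 GB.B3.EisGamma0 GB.B3.GamH
open GJ.J2.ZStruct GJ.J2.Lat GJ.J2.LatAct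
open GB.B4.Twist GB.B4.Twist.Asm GB.B4.Twist.Coeff
open GB.B3.TWLevel GB.B3.RealLevel
  GB.B3.HeckeActH GB.B3.TWChars GB.B3.FinalTW
  GB.B3.Tower GB.B3.StepInst GB.B3.LocTransport
  GB.B3.Final
open GB.B7.UqSq GB.B7.UqEquiv
open GB.B8.LevelIter GB.B8.LevelGen
open GB.B4.Datum.ImageRing GB.B10.L.ThetaNew
open GE6.Inst.MapBase
open GE8.RaiseP.NewLevel GE8.RaiseP.NewAnn
open GE8.RaiseP.P2.Pair GE8.RaiseP.P2.Repin
  GE8.RaiseP.P2.Main GE8.RaiseP.P2.MainPlug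
open GE8.RaiseP.G1.PairBase

namespace GE8.RaiseP.G1.PairPlug

open MvPolynomial

/-- local instance (Prop-valued class) -/
local instance factPrimeOffPP {S : Set ℕ} (l : PrimesOff S) : Fact (l.1 : ℕ).Prime := ⟨l.1.2⟩

/-! ### at the literal level `Nl * p` -/

section Literal

variable {Nl p : ℕ} [NeZero Nl] [hpF : Fact p.Prime] [NeZero (Nl * p)] {Kk : ℕ}
  {r e N' N'₀ : ℕ → ℕ}
variable (Sy : Symbols (Nl * p)) (hpNl : ¬ p ∣ Nl) (hrN : ∀ j, Sy.r j ∣ Nl)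
variable {O : Type} [CommRing O] [IsDomain O] [IsPrincipalIdealRing O] [IsLocalRing O]
  [IsAdicComplete (IsLocalRing.maximalIdeal O) O] [Module.IsTorsionFree ℤ O]
variable (𝔪 : Ideal (Sy.𝕋 O)) [𝔪.IsMaximal]
variable (H : PrimeData (Nl * p) p Kk r e N') (H₀ : PrimeData Nl p Kk r e N'₀)
  {ϖ : O} {s0 : Sy.ι₁} (h : Plug.Hyp Sy 𝔪 p ϖ s0)
variable (j : ℕ)
  {N₀ : ℕ} [NeZero N₀] [NeZero (N₀ * p)] (hN₀ : N₀ * p = Nl * p * ∏ i : Fin j, r i)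
  (S : Finset ℕ) (hNS : ∀ q : ℕ, q.Prime → q ∣ N₀ * p → q ∈ S)
  (dℓ : PrimesOff (↑S : Set ℕ) → Gamma0 (Nl * p))
  (tw : ↥(heckeAlgebra (N₀ * p) 2 (↑S : Set ℕ)) →+*
    Module.End O ↥(parabolicHoms O (GammaH (Theta (Δs p e) H.psi j)) O))
  (htw : ∀ (l : PrimesOff (↑S : Set ℕ))
      (v : ↥(parabolicHoms O (GammaH (Theta (Δs p e) H.psi j)) O)),
    ((tw (formsGenS (N₀ * p) (↑S : Set ℕ) l) v :
        ↥(parabolicHoms O (GammaH (Theta (Δs p e) H.psi j)) O)) :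
        Additive (GammaH (Theta (Δs p e) H.psi j)) →+ O)
      = diaH (Theta (Δs p e) H.psi j) O (dℓ l) (GamH.TH (Theta (Δs p e) H.psi j) O
          (not_dvd_level (↑S : Set ℕ) (GB.B10.L.Ann.hS_of_hNS S hNS)
            (Dvd.intro _ hN₀.symm) l)
          (v : Additive (GammaH (Theta (Δs p e) H.psi j)) →+ O)))
  (hpar : ∀ x : (Plug.bigLevel Sy 𝔪 H h j).M,
    (Plug.bigReal Sy 𝔪 H h j).ι x ∈ parabolicHoms O (GammaH (Theta (Δs p e) H.psi j)) O)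
  (twP : ↥(heckeAlgebra (N₀ * p) 2 (↑S : Set ℕ)) →+*
    Module.End O (Plug.bigLevel Sy 𝔪 H h j).M)
  (hιP : ∀ (t : ↥(heckeAlgebra (N₀ * p) 2 (↑S : Set ℕ))) (m : (Plug.bigLevel Sy 𝔪 H h j).M),
    (Plug.bigReal Sy 𝔪 H h j).ι (twP t m) =
      ((tw t ⟨(Plug.bigReal Sy 𝔪 H h j).ι m, hpar m⟩ :
        ↥(parabolicHoms O (GammaH (Theta (Δs p e) H.psi j)) O)) :
        Additive (GammaH (Theta (Δs p e) H.psi j)) →+ O))
variable {κ : Type} [Field κ] [Algebra O κ] [DecidableEq Sy.ι₁] [DecidableEq Sy.ι₂]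

include H₀ htw hιP hpNl hrN in
/-- **(g1) + (P2) + (P4), ONE CALL**: the `p`-new kernel `K` of the big level
`Plug.bigLevel Sy 𝔪 H h j`, as the kernel of a pair of morphisms of levels over the FIXED base maps
`f1`, `f2` between the FIXED bases `baseF`, `baseG`, stable under `twP`, with its (ANN). -/
theorem exists_fixedBase_ann [CharZero O] (hj : j ≤ Kk) (hp2 : p ≠ 2) (hpN₀ : ¬ p ∣ N₀)
    (hpS : p ∈ S)
    (hdℓ : ∀ (l : PrimesOff (↑S : Set ℕ)) (u : (ZMod (Nl * p))ˣ),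
      (u : ZMod (Nl * p)) = ((l.1 : ℕ) : ZMod (Nl * p)) →
      chi (Theta (Δs p e) H.psi j) (dℓ l) ^ 2 * Theta (Δs p e) H.psi j u = 1)
    (hℓ : Function.Injective Sy.ℓ) (hr : Function.Injective Sy.r)
    (hsurj : Function.Surjective (algebraMap O κ)) (M : ℕ) [NeZero M] (hpM : ¬ p ∣ M)
    (lamBase lamTop : Sy.𝕋 O →ₐ[O] κ) (α β : Sy.ι₁ ⊕ Sy.ι₂ → O) (Q : Finset (Sy.ι₁ ⊕ Sy.ι₂))
    (hN : Nl = M * ∏ s ∈ Q, prSy Sy s) (hQM : ∀ s ∈ Q, ¬ prSy Sy s ∣ M)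
    (hTW : ∀ s ∈ Q, TWCond (prSy Sy) lamBase lamTop α β s)
    (haway : ∀ s, s ∉ Q → lamTop (X s) = lamBase (X s))
    (h𝔪 : 𝔪 = RingHom.ker (lamTop : Sy.𝕋 O →+* κ))
    {σ' : Type} (pr' : σ' → ℕ) (hpr' : ∀ s, (pr' s).Prime) (hp' : ∀ s, pr' s ≠ p)
    (f : Sy.ι₁ ⊕ Sy.ι₂ → σ') (hf : ∀ s, pr' (f s) = prSy Sy s) (hfs : Function.Surjective f)
    (lam' : MvPolynomial σ' O →ₐ[O] κ)
    (hlam : lamBase = lam'.comp (rename f : Sy.𝕋 O →ₐ[O] MvPolynomial σ' O)) :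
    ∃ (u : M0 Sy 𝔪 (Δs p e) H.psi ≃ₗ[O] M0 Sy 𝔪 (Δs p e) H.psi)
      (hu : ∀ t x, u (act0 Sy 𝔪 (Δs p e) H.psi t x) = act0 Sy 𝔪 (Δs p e) H.psi t (u x))
      (ρ : Sy.𝕋 O →ₐ[O] Sy.𝕋 O)
      (eF : M0 Sy 𝔪 (Δs p e) H.psi ≃ₗ[O] baseF O pr' hpr' p M lam')
      (heF : ∀ t y, eF (act0 Sy 𝔪 (Δs p e) H.psi t y)
        = actFix Sy pr' hpr' M lam' f ρ t (eF y))
      (GG : FreeLevel O (Sy.𝕋 O) (baseG O pr' hpr' M lam') (actFixG Sy pr' hpr' M lam' f ρ) j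
        (Nfun p e j))
      (ΦA : LevelHom (mapBase (twistπ (Plug.bigLevel Sy 𝔪 H h j) u hu)
          (actFix Sy pr' hpr' M lam' f ρ) eF heF) GG (f1 O pr' hpr' p hp' M hpM lam'))
      (ΦB : LevelHom (mapBase (twistπ (Plug.bigLevel Sy 𝔪 H h j) u hu)
          (actFix Sy pr' hpr' M lam' f ρ) eF heF) GG (f2 O pr' hpr' p hp' M hpM lam'))
      (K : Submodule O (Plug.bigLevel Sy 𝔪 H h j).M)
      (hKeq : K = LinearMap.ker (LevelHom.prod GG GG ΦA ΦB).f)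
      (hK : ∀ (t : ↥(heckeAlgebra (N₀ * p) 2 (↑S : Set ℕ))), ∀ x ∈ K, twP t x ∈ K),
      (∀ s, s ∉ Q → ρ (X s) = X s) ∧ lamBase.comp ρ = lamTop ∧
      ∀ t₀ : O ⊗[ℤ] ↥(heckeAlgebra (N₀ * p) 2 (↑S : Set ℕ)),
        (∀ (a : O),
          ∀ x ∈ (LamNew hpN₀ : AddSubgroup
            (GB.B10.KumLevelHecke.levelData p (N₀ * p) hpS hNS).Λ),
          (GB.B10.KumLevelHecke.levelData p (N₀ * p) hpS hNS).heckeTensor O t₀
            (a ⊗ₜ[ℤ] x) = 0) →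
        ∀ m : K, twO O (restrictTw twP K hK) t₀ m = 0 := by
  have hdata := exists_kerData_ann Sy hpNl hrN 𝔪 H H₀ h j hN₀ S hNS dℓ tw htw hpar twP hιP hj
    hp2 hpN₀ hpS hdℓ
  obtain ⟨u, hu, G, R', φα, φβ, hK, hα, hβ, hann⟩ := hdata
  have key := exists_baseEquiv_pair hpNl Sy hrN (Δs p e) H.psi H₀.psi (Theta_eq_infl H H₀ 0)
    hℓ hr hsurj M hpM lamBase lamTop α β Q hN hQM hTW haway 𝔪 h𝔪 pr' hpr' hp' f hf hfs lam' hlam
  obtain ⟨ρ, eF, eG, heF, heG, hρ, hlamρ, sqα, sqβ⟩ := key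
  letI iG : AddCommGroup G.M := FreeLevel.instAddCommGroup G
  letI mG : Module O G.M := FreeLevel.instModule G
  refine ⟨u, hu, ρ, eF, heF, mapBase (M0' := baseG O pr' hpr' M lam') G
    (actFixG Sy pr' hpr' M lam' f ρ) eG heG, ?_⟩
  refine ⟨mapBaseHom (M0' := baseF O pr' hpr' p M lam') (P0' := baseG O pr' hpr' M lam')
      (actFix Sy pr' hpr' M lam' f ρ) eF heF (actFixG Sy pr' hpr' M lam' f ρ) eG heG
      φα (f1 O pr' hpr' p hp' M hpM lam') sqα, ?_⟩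
  refine ⟨mapBaseHom (M0' := baseF O pr' hpr' p M lam') (P0' := baseG O pr' hpr' M lam')
      (actFix Sy pr' hpr' M lam' f ρ) eF heF (actFixG Sy pr' hpr' M lam' f ρ) eG heG
      φβ (f2 O pr' hpr' p hp' M hpM lam') sqβ, ?_⟩
  exact ⟨(LinearMap.ker (LevelHom.prod G G φα φβ).f :
      Submodule O (Plug.bigLevel Sy 𝔪 H h j).M), rfl, hK, hρ, hlamρ, hann⟩

end Literal

/-! ### at a variable level `L = Nl * p` -/

/-- `PairBase.actFix` at any level -/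
noncomputable abbrev actFixL {L : ℕ} (Sy : Symbols L) {O : Type} [CommRing O] {κ : Type} [Field κ]
    [Algebra O κ] {σ' : Type} (pr' : σ' → ℕ) (hpr' : ∀ s, (pr' s).Prime) (p M : ℕ)
    (lam' : MvPolynomial σ' O →ₐ[O] κ) (f : Sy.ι₁ ⊕ Sy.ι₂ → σ') (ρ : Sy.𝕋 O →ₐ[O] Sy.𝕋 O) :
    Sy.𝕋 O →ₐ[O] Module.End O (baseF O pr' hpr' p M lam') :=
  (actBF O pr' hpr' p M lam').comp
    ((rename f : Sy.𝕋 O →ₐ[O] MvPolynomial σ' O).comp ρ)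

/-- `PairBase.actFixG` at any level -/
noncomputable abbrev actFixGL {L : ℕ} (Sy : Symbols L) {O : Type} [CommRing O] {κ : Type}
    [Field κ] [Algebra O κ] {σ' : Type} (pr' : σ' → ℕ) (hpr' : ∀ s, (pr' s).Prime) (M : ℕ)
    (lam' : MvPolynomial σ' O →ₐ[O] κ) (f : Sy.ι₁ ⊕ Sy.ι₂ → σ') (ρ : Sy.𝕋 O →ₐ[O] Sy.𝕋 O) :
    Sy.𝕋 O →ₐ[O] Module.End O (baseG O pr' hpr' M lam') :=
  (actBG O pr' hpr' M lam').comp
    ((rename f : Sy.𝕋 O →ₐ[O] MvPolynomial σ' O).comp ρ)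

section Var

variable {L Nl p : ℕ} [NeZero Nl] [hpF : Fact p.Prime] [NeZero L] {Kk : ℕ}
  {r e N' N'₀ : ℕ → ℕ}
variable (hL : L = Nl * p) (Sy : Symbols L) (hpNl : ¬ p ∣ Nl) (hrN : ∀ j, Sy.r j ∣ Nl)
variable {O : Type} [CommRing O] [IsDomain O] [IsPrincipalIdealRing O] [IsLocalRing O]
  [IsAdicComplete (IsLocalRing.maximalIdeal O) O] [Module.IsTorsionFree ℤ O]
variable (𝔪 : Ideal (Sy.𝕋 O)) [𝔪.IsMaximal]
variable (H : PrimeData L p Kk r e N') (H₀ : PrimeData Nl p Kk r e N'₀)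
  {ϖ : O} {s0 : Sy.ι₁} (h : Plug.Hyp Sy 𝔪 p ϖ s0)
variable (j : ℕ)
  {N₀ : ℕ} [NeZero N₀] [NeZero (N₀ * p)] (hN₀ : N₀ * p = L * ∏ i : Fin j, r i)
  (S : Finset ℕ) (hNS : ∀ q : ℕ, q.Prime → q ∣ N₀ * p → q ∈ S)
  (dℓ : PrimesOff (↑S : Set ℕ) → Gamma0 L)
  (tw : ↥(heckeAlgebra (N₀ * p) 2 (↑S : Set ℕ)) →+*
    Module.End O ↥(parabolicHoms O (GammaH (Theta (Δs p e) H.psi j)) O))
  (htw : ∀ (l : PrimesOff (↑S : Set ℕ))
      (v : ↥(parabolicHoms O (GammaH (Theta (Δs p e) H.psi j)) O)),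
    ((tw (formsGenS (N₀ * p) (↑S : Set ℕ) l) v :
        ↥(parabolicHoms O (GammaH (Theta (Δs p e) H.psi j)) O)) :
        Additive (GammaH (Theta (Δs p e) H.psi j)) →+ O)
      = diaH (Theta (Δs p e) H.psi j) O (dℓ l) (GamH.TH (Theta (Δs p e) H.psi j) O
          (not_dvd_level (↑S : Set ℕ) (GB.B10.L.Ann.hS_of_hNS S hNS)
            (Dvd.intro _ hN₀.symm) l)
          (v : Additive (GammaH (Theta (Δs p e) H.psi j)) →+ O)))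
  (hpar : ∀ x : (Plug.bigLevel Sy 𝔪 H h j).M,
    (Plug.bigReal Sy 𝔪 H h j).ι x ∈ parabolicHoms O (GammaH (Theta (Δs p e) H.psi j)) O)
  (twP : ↥(heckeAlgebra (N₀ * p) 2 (↑S : Set ℕ)) →+*
    Module.End O (Plug.bigLevel Sy 𝔪 H h j).M)
  (hιP : ∀ (t : ↥(heckeAlgebra (N₀ * p) 2 (↑S : Set ℕ))) (m : (Plug.bigLevel Sy 𝔪 H h j).M),
    (Plug.bigReal Sy 𝔪 H h j).ι (twP t m) =
      ((tw t ⟨(Plug.bigReal Sy 𝔪 H h j).ι m, hpar m⟩ :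
        ↥(parabolicHoms O (GammaH (Theta (Δs p e) H.psi j)) O)) :
        Additive (GammaH (Theta (Δs p e) H.psi j)) →+ O))
variable {κ : Type} [Field κ] [Algebra O κ] [DecidableEq Sy.ι₁] [DecidableEq Sy.ι₂]

include hL H₀ htw hιP hpNl hrN in
/-- **`exists_fixedBase_ann` at a VARIABLE level `L = Nl * p`** (e.g. `Q.Sy : Symbols Q.N`): the
statement VERBATIM with the literal `Nl * p` replaced by `L` everywhere. -/
theorem exists_fixedBase_ann_var [CharZero O] (hj : j ≤ Kk) (hp2 : p ≠ 2) (hpN₀ : ¬ p ∣ N₀)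
    (hpS : p ∈ S)
    (hdℓ : ∀ (l : PrimesOff (↑S : Set ℕ)) (u : (ZMod L)ˣ),
      (u : ZMod L) = ((l.1 : ℕ) : ZMod L) →
      chi (Theta (Δs p e) H.psi j) (dℓ l) ^ 2 * Theta (Δs p e) H.psi j u = 1)
    (hℓ : Function.Injective Sy.ℓ) (hr : Function.Injective Sy.r)
    (hsurj : Function.Surjective (algebraMap O κ)) (M : ℕ) [NeZero M] (hpM : ¬ p ∣ M)
    (lamBase lamTop : Sy.𝕋 O →ₐ[O] κ) (α β : Sy.ι₁ ⊕ Sy.ι₂ → O) (Q : Finset (Sy.ι₁ ⊕ Sy.ι₂))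
    (hN : Nl = M * ∏ s ∈ Q, prSy Sy s) (hQM : ∀ s ∈ Q, ¬ prSy Sy s ∣ M)
    (hTW : ∀ s ∈ Q, TWCond (prSy Sy) lamBase lamTop α β s)
    (haway : ∀ s, s ∉ Q → lamTop (X s) = lamBase (X s))
    (h𝔪 : 𝔪 = RingHom.ker (lamTop : Sy.𝕋 O →+* κ))
    {σ' : Type} (pr' : σ' → ℕ) (hpr' : ∀ s, (pr' s).Prime) (hp' : ∀ s, pr' s ≠ p)
    (f : Sy.ι₁ ⊕ Sy.ι₂ → σ') (hf : ∀ s, pr' (f s) = prSy Sy s) (hfs : Function.Surjective f)
    (lam' : MvPolynomial σ' O →ₐ[O] κ)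
    (hlam : lamBase = lam'.comp (rename f : Sy.𝕋 O →ₐ[O] MvPolynomial σ' O)) :
    ∃ (u : M0 Sy 𝔪 (Δs p e) H.psi ≃ₗ[O] M0 Sy 𝔪 (Δs p e) H.psi)
      (hu : ∀ t x, u (act0 Sy 𝔪 (Δs p e) H.psi t x) = act0 Sy 𝔪 (Δs p e) H.psi t (u x))
      (ρ : Sy.𝕋 O →ₐ[O] Sy.𝕋 O)
      (eF : M0 Sy 𝔪 (Δs p e) H.psi ≃ₗ[O] baseF O pr' hpr' p M lam')
      (heF : ∀ t y, eF (act0 Sy 𝔪 (Δs p e) H.psi t y)
        = actFixL Sy pr' hpr' p M lam' f ρ t (eF y))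
      (GG : FreeLevel O (Sy.𝕋 O) (baseG O pr' hpr' M lam') (actFixGL Sy pr' hpr' M lam' f ρ) j
        (Nfun p e j))
      (ΦA : LevelHom (mapBase (twistπ (Plug.bigLevel Sy 𝔪 H h j) u hu)
          (actFixL Sy pr' hpr' p M lam' f ρ) eF heF) GG (f1 O pr' hpr' p hp' M hpM lam'))
      (ΦB : LevelHom (mapBase (twistπ (Plug.bigLevel Sy 𝔪 H h j) u hu)
          (actFixL Sy pr' hpr' p M lam' f ρ) eF heF) GG (f2 O pr' hpr' p hp' M hpM lam'))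
      (K : Submodule O (Plug.bigLevel Sy 𝔪 H h j).M)
      (hKeq : K = LinearMap.ker (LevelHom.prod GG GG ΦA ΦB).f)
      (hK : ∀ (t : ↥(heckeAlgebra (N₀ * p) 2 (↑S : Set ℕ))), ∀ x ∈ K, twP t x ∈ K),
      (∀ s, s ∉ Q → ρ (X s) = X s) ∧ lamBase.comp ρ = lamTop ∧
      ∀ t₀ : O ⊗[ℤ] ↥(heckeAlgebra (N₀ * p) 2 (↑S : Set ℕ)),
        (∀ (a : O),
          ∀ x ∈ (LamNew hpN₀ : AddSubgroup
            (GB.B10.KumLevelHecke.levelData p (N₀ * p) hpS hNS).Λ),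
          (GB.B10.KumLevelHecke.levelData p (N₀ * p) hpS hNS).heckeTensor O t₀
            (a ⊗ₜ[ℤ] x) = 0) →
        ∀ m : K, twO O (restrictTw twP K hK) t₀ m = 0 := by
  subst hL
  exact exists_fixedBase_ann Sy hpNl hrN 𝔪 H H₀ h j hN₀ S hNS dℓ tw htw hpar twP hιP hj hp2 hpN₀
    hpS hdℓ hℓ hr hsurj M hpM lamBase lamTop α β Q hN hQM hTW haway h𝔪 pr' hpr' hp' f hf hfs
    lam' hlam

end Var

end GE8.RaiseP.G1.PairPlug

end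

end Fermat.Agent.GE8.P3B
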