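/-
GATE-E / RISK-4 PNEW-STAGE, leaf R4-G (g1), file 8 (helper15): **`PairPlug.exists_fixedBase_ann_var`
AT THE OBJECTS OF RECORD of one Taylor–Wiles set** (the `p`-new twin of
`GE6/Inst/FreeLevelInst` PART B `exists_baseE`).

`P : Pkg p W hcard₁ hker (M * p) A`, `¬ p ∣ M`, `Q : G1.TWSet P g n`.  The B3 level is
`Q.N = (M * p) * ∏ qv = NlQ Q * p` with `NlQ Q := M * ∏ qv` (`p ∤ NlQ Q`); the symbols `Q.Sy` have no
`U`-symbol at `p`.

* `NlQ`, `hLQ`, `hrNQ`, `hpNlQ`, `hNQ`, `hQMQ` : the level without `p` and the seam binders at the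
  base level `M` (from `Q.hN`, `Q.hQM` at `M * p`);
* `cofRev₀`, **`primeDataE₀ Q E hE`** : the prime data at the level `NlQ Q`, SAME primes `rRev Q`
  and exponents `eRev E` as `FreeLevelInst.primeDataE Q E hE`;
* **`exists_fixedBase_ann_TW`** : `PairPlug.exists_fixedBase_ann_var` at `Sy := Q.Sy`, `𝔪 := Q.𝔪`,
  `H := primeDataE Q E hE`, `H₀ := primeDataE₀ Q E hE`, `h := Q.hyp hp3`, `σ' := I0 W p (M * p)`,
  `pr' := pr0 W p (M * p)`, `f := sigQ Q`, `lam' := lam0 P`: EVERY seam binder discharged from `Q`;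
  the remaining binders are the G2 block (`j ≤ g`, forms level `N₀ * p`, `S`, `dℓ`, `tw`, `twP`, …).
  The conclusion is that of `exists_fixedBase_ann_var` VERBATIM at
  `baseF P.O (pr0 W p (M*p)) _ p M (lam0 P)`, `baseG …`, `f1 …`, `f2 …` (the `MF P0 f₁ f₂` of
  `Hf0Pkg.surjective_f1_f2_pkg`).
-/
import Fermat.Agent.GE8.P3B.GE8.RaiseP.G1.PairPlug
import Fermat.Agent.GE8.P3B.GE8.RaiseP.Hf0Pkg
import Fermat.Agent.GE8.P3B.GE6.Inst.FreeLevelInst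
import Fermat.Agent.GE8.P3B.StepGen
import Fermat.Agent.GE8.P3B.Ok3W

/- TWIN (helper6 B4 generator; conventions of helper24 / helper86) of `Fermat.Agent.GE8.RaiseP.G1.PairTW` with `p ≠ 3` relaxed to `Ok3A Sy 𝔪 p` / `Ok3W p W` (RISK-5 fix (B), step B4); everything below lives in the wrapper namespace `Fermat.Agent.GE8.P3B`. -/
set_option linter.dupNamespace false
open Fermat Fermat.Agent Fermat.Agent.GB Fermat.Agent.GB.B10 Fermat.Agent.GB.B10.L Fermat.Agent.GB.B10.L.ThetaNew Fermat.Agent.GB.B3 Fermat.Agent.GB.B3.EisGamma0 Fermat.Agent.GB.B3.GamH Fermat.Agent.GB.B3.HeckeActH Fermat.Agent.GB.B3.RealLevel Fermat.Agent.GB.B3.TWChars Fermat.Agent.GB.B3.TWLevel Fermat.Agent.GB.B4 Fermat.Agent.GB.B4.Datum Fermat.Agent.GB.B4.Datum.ImageRing Fermat.Agent.GB.B4.Twist Fermat.Agent.GB.B4.Twist.Asm Fermat.Agent.GB.B4.Twist.Coeff Fermat.Agent.GB.B7 Fermat.Agent.GB.B7.UqEquiv Fermat.Agent.GB.B7.UqSq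 Fermat.Agent.GB.B8 Fermat.Agent.GB.B8.LevelGen Fermat.Agent.GB.B8.LevelIter Fermat.Agent.GB.B9 Fermat.Agent.GB.B9.ProviderFlat Fermat.Agent.GB.B9.ProviderFlat.H1 Fermat.Agent.GB.Setup Fermat.Agent.GB.Setup.SetupPkg Fermat.Agent.GE6 Fermat.Agent.GE6.Inst Fermat.Agent.GE6.Inst.MapBase Fermat.Agent.GE8 Fermat.Agent.GE8.RaiseP Fermat.Agent.GE8.RaiseP.G1 Fermat.Agent.GE8.RaiseP.NewLevel Fermat.Agent.GE8.RaiseP.P2 Fermat.Agent.GE8.RaiseP.P2.Repin Fermat.Agent.GJ Fermat.Agent.GJ.J2 Fermat.Agent.GJ.J2.Lat Fermat.Agent.GJ.J2.LatAct Fermat.Agent.GJ.J2.ZStruct Fermat.Agent.GM Fermat.Agent.GM.Amalgam Fermat.Agent.GM.B Fermat.Agent.S16_helper49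

namespace Fermat.Agent.GE8.P3B

set_option autoImplicit false
set_option linter.unusedSectionVars false
set_option linter.unusedVariables false
set_option linter.style.haveILetI false

noncomputable section

open scoped MatrixGroups TensorProduct
open CongruenceSubgroup Matrix Matrix.SpecialLinearGroup ModularCurve.Period CuspForm
open S16_helper49 GM.B GM.Amalgam
open GB.B3 GB.B3.EisGamma0 GB.B3.GamH
open GJ.J2.ZStruct GJ.J2.Lat GJ.J2.LatAct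
open GB.B4.Twist GB.B4.Twist.Asm GB.B4.Twist.Coeff
open GB.B3.TWLevel GB.B3.RealLevel
  GB.B3.HeckeActH GB.B3.TWChars GB.B3.FinalTW
  GB.B3.Tower GB.B3.StepInst GB.B3.LocTransport
  GB.B3.Final
open GB.B7.UqSq GB.B7.UqEquiv
open GB.B8.LevelIter GB.B8.LevelGen
open GB.B4.Datum.ImageRing GB.B10.L.ThetaNew
open GE6.Inst.MapBase GE6.Inst.FreeLevelInst
open GE8.RaiseP.NewLevel GE8.RaiseP.NewAnn
open GE8.RaiseP.P2.Pair GE8.RaiseP.P2.Repin
  GE8.RaiseP.P2.Main GE8.RaiseP.P2.MainPlug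
open GE8.RaiseP.G1.PairBase GE8.RaiseP.G1.PairPlug
open GE8.RaiseP.Hf0Pkg
open GB.Setup.SetupPkg GB.B9.ProviderFlat.G1
  GB.B9.ProviderFlat.H1

namespace GE8.RaiseP.G1.PairTW

open MvPolynomial

/-- local instance (Prop-valued class) -/
local instance factPrimeOffPT {S : Set ℕ} (l : PrimesOff S) : Fact (l.1 : ℕ).Prime := ⟨l.1.2⟩

variable {p : ℕ} [hpF : Fact p.Prime] {W : WeierstrassCurve ℤ}
  {hcard₁ : Nat.card (Submodule.torsionBy ℤ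
    ((W.map (Int.castRingHom ℚ)).toAffine.baseChange (AlgebraicClosure ℚ)).Point p) = p ^ 2}
  {hker : GaloisFactorsThroughFiniteLevel
    (WeierstrassCurve.Affine.Point.galoisRepModuleEnd (K := AlgebraicClosure ℚ) ℚ
      (W.map (Int.castRingHom ℚ)) p)}
  {M A : ℕ} {P : Pkg p W hcard₁ hker (M * p) A} {g n : ℕ} (Q : TWSet P g n)

/-! ### the level without `p` -/

/-- the Taylor–Wiles level without `p`: `M * ∏ qv` -/
def NlQ : ℕ := M * ∏ i, Q.qv i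

theorem NlQ_def : NlQ Q = M * ∏ i, Q.qv i := rfl

/-- `Q.N = NlQ Q * p` -/
theorem hLQ : Q.N = NlQ Q * p := by
  rw [NlQ_def, TWSet.N, mul_right_comm]

/-- the `U`-primes (the Taylor–Wiles primes) divide `NlQ Q` -/
theorem hrNQ : ∀ j, Q.Sy.r j ∣ NlQ Q := fun j =>
  Dvd.dvd.mul_left (Finset.dvd_prod_of_mem Q.qv (Finset.mem_univ (Q.iOf j))) _

include Q in
theorem M_ne_zero : M ≠ 0 := fun h0 => P.hM (by rw [h0, zero_mul])

theorem NlQ_ne_zero : NlQ Q ≠ 0 :=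
  Nat.mul_ne_zero (M_ne_zero Q) (Finset.prod_ne_zero_iff.mpr fun i _ => (Q.prime i).ne_zero)

/-- `p ∤ NlQ Q` -/
theorem hpNlQ (hpM : ¬ p ∣ M) : ¬ p ∣ NlQ Q := by
  intro h
  rcases (hpF.out.dvd_mul).mp h with h1 | h1
  · exact hpM h1
  · obtain ⟨i, -, hi⟩ := (Prime.dvd_finsetProd_iff hpF.out.prime _).mp h1
    exact (Q.good i).2.2 ((Nat.prime_dvd_prime_iff_eq hpF.out (Q.prime i)).mp hi).symm

/-- `hN` at the base level `M` -/
theorem hNQ : NlQ Q = M * ∏ s ∈ Q.Qset, prSy Q.Sy s := by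
  rw [NlQ_def, TWSet.Qset, Finset.prod_map]
  rfl

/-- `hQM` at the base level `M` -/
theorem hQMQ : ∀ s ∈ Q.Qset, ¬ prSy Q.Sy s ∣ M := fun s hs h =>
  Q.hQM s hs (Dvd.dvd.mul_right h p)

/-! ### the prime data at `NlQ Q` -/

/-- the cofactors at the level without `p` -/
def cofRev₀ : ℕ → ℕ := cof M (fun i : Fin g => Q.qv (Fin.rev i)) (Fin.elim0 : Fin 0 → ℕ)

theorem bigN_rev₀ : bigN M (fun i : Fin g => Q.qv (Fin.rev i)) = NlQ Q := by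
  rw [NlQ_def]
  show M * ∏ i : Fin g, Q.qv (Fin.rev i) = M * ∏ i, Q.qv i
  congr 1
  exact Equiv.prod_comp Fin.revPerm Q.qv

/-- **the prime data at the level `NlQ Q` without `p`**: same primes `rRev Q`, same exponents
`eRev E` as `FreeLevelInst.primeDataE Q E hE`. -/
theorem primeDataE₀ (E : Fin g → ℕ) (hE : ∀ j, p ^ E j ∣ Q.qv j - 1) :
    PrimeData (NlQ Q) p g (rRev Q) (eRev E) (cofRev₀ Q) := by
  have H₀ : PrimeData (bigN M (fun i : Fin g => Q.qv (Fin.rev i))) p (g + 0)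
      (seq (fun i : Fin g => Q.qv (Fin.rev i)) (Fin.elim0 : Fin 0 → ℕ))
      (seq (fun _ : Fin g => 0) (Fin.elim0 : Fin 0 → ℕ))
      (cof M (fun i : Fin g => Q.qv (Fin.rev i)) (Fin.elim0 : Fin 0 → ℕ)) :=
    GB.B9.ProviderFlat.H1.primeData (p := p) (n := 0) (ef := (Fin.elim0 : Fin 0 → ℕ))
      (fun a b h => Fin.rev_injective (Q.inj h)) (fun i => Q.prime _)
      (fun i h => (Q.good _).2.1 (Dvd.dvd.mul_right h p))
      (fun i => by rw [pow_zero]; exact one_dvd _)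
      (fun a => a.elim0) (fun a => a.elim0) (fun a => a.elim0) (fun a => a.elim0)
      (fun a => a.elim0)
  refine ⟨H₀.prime, fun i hi => (bigN_rev₀ Q).symm.trans (H₀.fact i hi), H₀.cop, ?_, H₀.inj, ?_⟩
  · intro i hi
    rw [eRev_lt E hi, rRev_lt Q hi]
    exact hE _
  · intro i hi
    exact seq_ge _ _ (by omega)

/-! ### the `p`-new kernel at `Q`, over the fixed bases -/

section Main

variable [NeZero M] (hp3 : Ok3W p W) (E : Fin g → ℕ) (hE : ∀ j, p ^ E j ∣ Q.qv j - 1)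
variable (j : ℕ)
  {N₀ : ℕ} [NeZero N₀] [NeZero (N₀ * p)] (hN₀ : N₀ * p = Q.N * ∏ i : Fin j, rRev Q i)
  (S : Finset ℕ) (hNS : ∀ q : ℕ, q.Prime → q ∣ N₀ * p → q ∈ S)
  (dℓ : PrimesOff (↑S : Set ℕ) → Gamma0 Q.N)
  (tw : ↥(heckeAlgebra (N₀ * p) 2 (↑S : Set ℕ)) →+*
    Module.End P.O ↥(parabolicHoms P.O
      (GammaH (Theta (Δs p (eRev E)) (primeDataE Q E hE).psi j)) P.O))
  (htw : ∀ (l : PrimesOff (↑S : Set ℕ))
      (v : ↥(parabolicHoms P.O (GammaH (Theta (Δs p (eRev E)) (primeDataE Q E hE).psi j)) P.O)),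
    ((tw (formsGenS (N₀ * p) (↑S : Set ℕ) l) v :
        ↥(parabolicHoms P.O (GammaH (Theta (Δs p (eRev E)) (primeDataE Q E hE).psi j)) P.O)) :
        Additive (GammaH (Theta (Δs p (eRev E)) (primeDataE Q E hE).psi j)) →+ P.O)
      = diaH (Theta (Δs p (eRev E)) (primeDataE Q E hE).psi j) P.O (dℓ l)
          (GamH.TH (Theta (Δs p (eRev E)) (primeDataE Q E hE).psi j) P.O
            (not_dvd_level (↑S : Set ℕ) (GB.B10.L.Ann.hS_of_hNS S hNS)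
              (Dvd.intro _ hN₀.symm) l)
            (v : Additive (GammaH (Theta (Δs p (eRev E)) (primeDataE Q E hE).psi j)) →+ P.O)))
  (hpar : ∀ x : (Plug.bigLevel Q.Sy Q.𝔪 (primeDataE Q E hE) (Q.hyp hp3) j).M,
    (Plug.bigReal Q.Sy Q.𝔪 (primeDataE Q E hE) (Q.hyp hp3) j).ι x
      ∈ parabolicHoms P.O (GammaH (Theta (Δs p (eRev E)) (primeDataE Q E hE).psi j)) P.O)
  (twP : ↥(heckeAlgebra (N₀ * p) 2 (↑S : Set ℕ)) →+*
    Module.End P.O (Plug.bigLevel Q.Sy Q.𝔪 (primeDataE Q E hE) (Q.hyp hp3) j).M)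
  (hιP : ∀ (t : ↥(heckeAlgebra (N₀ * p) 2 (↑S : Set ℕ)))
      (m : (Plug.bigLevel Q.Sy Q.𝔪 (primeDataE Q E hE) (Q.hyp hp3) j).M),
    (Plug.bigReal Q.Sy Q.𝔪 (primeDataE Q E hE) (Q.hyp hp3) j).ι (twP t m) =
      ((tw t ⟨(Plug.bigReal Q.Sy Q.𝔪 (primeDataE Q E hE) (Q.hyp hp3) j).ι m, hpar m⟩ :
        ↥(parabolicHoms P.O (GammaH (Theta (Δs p (eRev E)) (primeDataE Q E hE).psi j)) P.O)) :
        Additive (GammaH (Theta (Δs p (eRev E)) (primeDataE Q E hE).psi j)) →+ P.O))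

include htw hιP in
/-- **the `p`-new kernel of the big level at a Taylor–Wiles set `Q`, over the FIXED bases**:
`PairPlug.exists_fixedBase_ann_var` with every seam binder discharged from `Q`. -/
theorem exists_fixedBase_ann_TW (hpM : ¬ p ∣ M) (hj : j ≤ g) (hpN₀ : ¬ p ∣ N₀) (hpS : p ∈ S)
    (hdℓ : ∀ (l : PrimesOff (↑S : Set ℕ)) (u : (ZMod Q.N)ˣ),
      (u : ZMod Q.N) = ((l.1 : ℕ) : ZMod Q.N) →
      chi (Theta (Δs p (eRev E)) (primeDataE Q E hE).psi j) (dℓ l) ^ 2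
        * Theta (Δs p (eRev E)) (primeDataE Q E hE).psi j u = 1) :
    ∃ (u : M0 Q.Sy Q.𝔪 (Δs p (eRev E)) (primeDataE Q E hE).psi
          ≃ₗ[P.O] M0 Q.Sy Q.𝔪 (Δs p (eRev E)) (primeDataE Q E hE).psi)
      (hu : ∀ t x, u (act0 Q.Sy Q.𝔪 (Δs p (eRev E)) (primeDataE Q E hE).psi t x)
        = act0 Q.Sy Q.𝔪 (Δs p (eRev E)) (primeDataE Q E hE).psi t (u x))
      (ρ : Q.Sy.𝕋 P.O →ₐ[P.O] Q.Sy.𝕋 P.O)
      (eF : M0 Q.Sy Q.𝔪 (Δs p (eRev E)) (primeDataE Q E hE).psi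
          ≃ₗ[P.O] baseF P.O (pr0 W p (M * p)) (pr0_prime W p (M * p)) p M (lam0 P))
      (heF : ∀ t y, eF (act0 Q.Sy Q.𝔪 (Δs p (eRev E)) (primeDataE Q E hE).psi t y)
        = actFixL Q.Sy (pr0 W p (M * p)) (pr0_prime W p (M * p)) p M (lam0 P) (sigQ Q) ρ t (eF y))
      (GG : FreeLevel P.O (Q.Sy.𝕋 P.O)
        (baseG P.O (pr0 W p (M * p)) (pr0_prime W p (M * p)) M (lam0 P))
        (actFixGL Q.Sy (pr0 W p (M * p)) (pr0_prime W p (M * p)) M (lam0 P) (sigQ Q) ρ) j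
        (Nfun p (eRev E) j))
      (ΦA : LevelHom (mapBase
          (twistπ (Plug.bigLevel Q.Sy Q.𝔪 (primeDataE Q E hE) (Q.hyp hp3) j) u hu)
          (actFixL Q.Sy (pr0 W p (M * p)) (pr0_prime W p (M * p)) p M (lam0 P) (sigQ Q) ρ)
          eF heF) GG
        (f1 P.O (pr0 W p (M * p)) (pr0_prime W p (M * p)) p (pr0_ne_p (M * p)) M hpM (lam0 P)))
      (ΦB : LevelHom (mapBase
          (twistπ (Plug.bigLevel Q.Sy Q.𝔪 (primeDataE Q E hE) (Q.hyp hp3) j) u hu)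
          (actFixL Q.Sy (pr0 W p (M * p)) (pr0_prime W p (M * p)) p M (lam0 P) (sigQ Q) ρ)
          eF heF) GG
        (f2 P.O (pr0 W p (M * p)) (pr0_prime W p (M * p)) p (pr0_ne_p (M * p)) M hpM (lam0 P)))
      (K : Submodule P.O (Plug.bigLevel Q.Sy Q.𝔪 (primeDataE Q E hE) (Q.hyp hp3) j).M)
      (hKeq : K = LinearMap.ker (LevelHom.prod GG GG ΦA ΦB).f)
      (hK : ∀ (t : ↥(heckeAlgebra (N₀ * p) 2 (↑S : Set ℕ))), ∀ x ∈ K, twP t x ∈ K),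
      (∀ s, s ∉ Q.Qset → ρ (X s) = X s) ∧ Q.lamBase.comp ρ = Q.lamTop ∧
      ∀ t₀ : P.O ⊗[ℤ] ↥(heckeAlgebra (N₀ * p) 2 (↑S : Set ℕ)),
        (∀ (a : P.O),
          ∀ x ∈ (LamNew hpN₀ : AddSubgroup
            (GB.B10.KumLevelHecke.levelData p (N₀ * p) hpS hNS).Λ),
          (GB.B10.KumLevelHecke.levelData p (N₀ * p) hpS hNS).heckeTensor P.O t₀
            (a ⊗ₜ[ℤ] x) = 0) →
        ∀ m : K, twO P.O (restrictTw twP K hK) t₀ m = 0 := by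
  classical
  haveI : NeZero (NlQ Q) := ⟨NlQ_ne_zero Q⟩
  exact exists_fixedBase_ann_var (hLQ Q) Q.Sy (hpNlQ Q hpM) (hrNQ Q) Q.𝔪 (primeDataE Q E hE)
    (primeDataE₀ Q E hE) (Q.hyp hp3) j hN₀ S hNS dℓ tw htw hpar twP hιP hj P.hp2 hpN₀ hpS hdℓ
    Q.injective_ℓ Q.injective_r Q.hsurj M hpM Q.lamBase Q.lamTop Q.αl Q.βl Q.Qset (hNQ Q)
    (hQMQ Q) Q.hTW Q.haway Q.h𝔪 (pr0 W p (M * p)) (pr0_prime W p (M * p)) (pr0_ne_p (M * p))
    (sigQ Q) (pr0_sigQ Q) (sigQ_surjective Q) (lam0 P) (lamBase_eq Q)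

end Main

end GE8.RaiseP.G1.PairTW

end

end Fermat.Agent.GE8.P3B
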